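import Mathlib
import Fermat.Agent.S28.Defs

/-!
# GR, block (B): the formal Hecke operator `T_ℓ` on Laurent series (multiplicative version)

`formalT ℓ ζ h = h(q^ℓ) * ∏_{b < ℓ} h(ζ^b q^{1/ℓ})`.

Everything is formal: `R` is any commutative ring (a domain for the statements where the
primitive root of unity is used).
-/

set_option autoImplicit false
noncomputable section

namespace Fermat.Agent.GR

open ModularCurve HahnSeries

variable {R : Type*} [CommRing R]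

/-! ## `qScale c : h(q) ↦ h(c q)` -/

/-- `h(q) ↦ h(c q)` (this is `Fermat.Agent.S28.twist`). -/
abbrev qScale (c : Rˣ) : LaurentSeries R →+* LaurentSeries R := Fermat.Agent.S28.twist c

theorem qScale_coeff (c : Rˣ) (h : LaurentSeries R) (n : ℤ) :
    (qScale c h).coeff n = ((c ^ n : Rˣ) : R) * h.coeff n := rfl

@[simp] theorem qScale_one (h : LaurentSeries R) : qScale (1 : Rˣ) h = h := by
  ext n
  simp

theorem qScale_qScale (c d : Rˣ) (h : LaurentSeries R) :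
    qScale c (qScale d h) = qScale (c * d) h := by
  ext n
  rw [qScale_coeff, qScale_coeff, qScale_coeff, mul_zpow, Units.val_mul, mul_assoc]

theorem coeffMap_qScale {S : Type*} [CommRing S] (φ : R →+* S) (c : Rˣ) (h : LaurentSeries R) :
    coeffMap φ (qScale c h) = qScale (Units.map (φ : R →* S) c) (coeffMap φ h) := by
  ext n
  rw [coeffMap_coeff, qScale_coeff, qScale_coeff, coeffMap_coeff, map_mul, ← map_zpow]
  rfl

theorem qScale_qExpand (ℓ : ℕ) [NeZero ℓ] (c : Rˣ) (h : LaurentSeries R) :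
    qScale c (qExpand R ℓ h) = qExpand R ℓ (qScale (c ^ ℓ) h) := by
  ext n
  by_cases hn : (ℓ : ℤ) ∣ n
  · obtain ⟨m, rfl⟩ := hn
    rw [qScale_coeff, qExpand_coeff_mul, qExpand_coeff_mul, qScale_coeff, zpow_mul, zpow_natCast]
  · rw [qScale_coeff, qExpand_coeff_of_not_dvd ℓ _ hn, qExpand_coeff_of_not_dvd ℓ _ hn, mul_zero]

theorem qScale_single (c : Rˣ) (n : ℤ) (r : R) :
    qScale c (HahnSeries.single n r) = HahnSeries.single n (((c ^ n : Rˣ) : R) * r) := by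
  ext m
  rw [qScale_coeff]
  rcases eq_or_ne m n with rfl | hm
  · simp
  · simp [HahnSeries.coeff_single_of_ne hm]

/-! ## `qContract ℓ`: `∑ a_n q^n ↦ ∑ a_{ℓ n} q^n` -/

/-- `∑ a_n q^n ↦ ∑ a_{ℓ n} q^n`, a left inverse of `qExpand R ℓ`. -/
def qContract (ℓ : ℕ) [NeZero ℓ] : LaurentSeries R →+ LaurentSeries R where
  toFun f := HahnSeries.ofSuppBddBelow (fun n => f.coeff ((ℓ : ℤ) * n))
    ⟨min f.order 0, fun n hn => by
      by_contra hlt
      rw [not_le, lt_min_iff] at hlt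
      apply hn
      apply HahnSeries.coeff_eq_zero_of_lt_order
      have hℓ : (1 : ℤ) ≤ (ℓ : ℤ) := by exact_mod_cast Nat.pos_of_ne_zero (NeZero.ne ℓ)
      nlinarith [hlt.1, hlt.2]⟩
  map_zero' := by ext n; simp
  map_add' f g := by ext n; rfl

@[simp] theorem qContract_coeff (ℓ : ℕ) [NeZero ℓ] (f : LaurentSeries R) (n : ℤ) :
    (qContract ℓ f).coeff n = f.coeff ((ℓ : ℤ) * n) := rfl

@[simp] theorem qContract_qExpand (ℓ : ℕ) [NeZero ℓ] (f : LaurentSeries R) :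
    qContract ℓ (qExpand R ℓ f) = f := by
  ext n
  rw [qContract_coeff, qExpand_coeff_mul]

theorem qExpand_qContract (ℓ : ℕ) [NeZero ℓ] {f : LaurentSeries R}
    (hf : ∀ n : ℤ, ¬ (ℓ : ℤ) ∣ n → f.coeff n = 0) : qExpand R ℓ (qContract ℓ f) = f := by
  ext n
  by_cases hn : (ℓ : ℤ) ∣ n
  · obtain ⟨m, rfl⟩ := hn
    rw [qExpand_coeff_mul, qContract_coeff]
  · rw [qExpand_coeff_of_not_dvd ℓ _ hn, hf n hn]

theorem coeffMap_qContract {S : Type*} [CommRing S] (φ : R →+* S) (ℓ : ℕ) [NeZero ℓ]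
    (f : LaurentSeries R) : coeffMap φ (qContract ℓ f) = qContract ℓ (coeffMap φ f) := by
  ext n
  simp

theorem coeffMap_qExpand {S : Type*} [CommRing S] (φ : R →+* S) (ℓ : ℕ) [NeZero ℓ]
    (f : LaurentSeries R) : coeffMap φ (qExpand R ℓ f) = qExpand S ℓ (coeffMap φ f) := by
  ext k
  by_cases hk : (ℓ : ℤ) ∣ k
  · obtain ⟨m, rfl⟩ := hk
    rw [coeffMap_coeff, qExpand_coeff_mul, qExpand_coeff_mul, coeffMap_coeff]
  · rw [coeffMap_coeff, qExpand_coeff_of_not_dvd ℓ _ hk, qExpand_coeff_of_not_dvd ℓ _ hk,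
      map_zero]

/-! ## the product over the conjugates -/

/-- `∏_{b < ℓ} h(ζ^b q)`. -/
def conjProd (ℓ : ℕ) (ζ : Rˣ) (h : LaurentSeries R) : LaurentSeries R :=
  ∏ b ∈ Finset.range ℓ, qScale (ζ ^ b) h

theorem conjProd_one (ℓ : ℕ) (ζ : Rˣ) : conjProd ℓ ζ (1 : LaurentSeries R) = 1 := by
  simp [conjProd]

theorem conjProd_mul (ℓ : ℕ) (ζ : Rˣ) (h₁ h₂ : LaurentSeries R) :
    conjProd ℓ ζ (h₁ * h₂) = conjProd ℓ ζ h₁ * conjProd ℓ ζ h₂ := by
  simp only [conjProd, map_mul, Finset.prod_mul_distrib]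

theorem coeffMap_conjProd {S : Type*} [CommRing S] (φ : R →+* S) (ℓ : ℕ) (ζ : Rˣ)
    (h : LaurentSeries R) :
    coeffMap φ (conjProd ℓ ζ h) = conjProd ℓ (Units.map (φ : R →* S) ζ) (coeffMap φ h) := by
  simp only [conjProd, map_prod, coeffMap_qScale, map_pow]

theorem qScale_conjProd (ℓ : ℕ) [NeZero ℓ] {ζ : Rˣ} (hζ : ζ ^ ℓ = 1) (h : LaurentSeries R) :
    qScale ζ (conjProd ℓ ζ h) = conjProd ℓ ζ h := by
  obtain ⟨m, hm⟩ := Nat.exists_eq_succ_of_ne_zero (NeZero.ne ℓ)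
  have h1 : qScale ζ (conjProd ℓ ζ h) = ∏ b ∈ Finset.range ℓ, qScale (ζ ^ (b + 1)) h := by
    simp only [conjProd, map_prod, qScale_qScale, pow_succ']
  rw [h1, conjProd, hm, Finset.prod_range_succ, Finset.prod_range_succ', ← Nat.succ_eq_add_one,
    ← hm, hζ, pow_zero]

theorem conjProd_coeff_of_not_dvd [IsDomain R] (ℓ : ℕ) [NeZero ℓ] {ζ : Rˣ}
    (hζ : IsPrimitiveRoot ζ ℓ) (h : LaurentSeries R) (n : ℤ) (hn : ¬ (ℓ : ℤ) ∣ n) :
    (conjProd ℓ ζ h).coeff n = 0 := by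
  have h1 := congrArg (fun f => HahnSeries.coeff f n) (qScale_conjProd ℓ hζ.pow_eq_one h)
  simp only [qScale_coeff] at h1
  have h2 : (((ζ ^ n : Rˣ) : R) - 1) * (conjProd ℓ ζ h).coeff n = 0 := by
    rw [sub_mul, h1, one_mul, sub_self]
  rcases mul_eq_zero.mp h2 with h3 | h3
  · exfalso
    apply hn
    rw [← hζ.zpow_eq_one_iff_dvd]
    exact Units.ext (by simpa using sub_eq_zero.mp h3)
  · exact h3

/-- the product over `b` does not depend on the primitive root. -/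
theorem conjProd_eq_of_isPrimitiveRoot [IsDomain R] (ℓ : ℕ) [NeZero ℓ] {ζ ζ' : Rˣ}
    (hζ : IsPrimitiveRoot ζ ℓ) (hζ' : IsPrimitiveRoot ζ' ℓ) (h : LaurentSeries R) :
    conjProd ℓ ζ h = conjProd ℓ ζ' h := by
  classical
  have key : ∀ ξ : Rˣ, IsPrimitiveRoot ξ ℓ →
      conjProd ℓ ξ h = ∏ c ∈ (Finset.range ℓ).image (fun b => ξ ^ b), qScale c h := by
    intro ξ hξ
    rw [Finset.prod_image]
    · rfl
    · intro a ha b hb hab
      exact hξ.pow_inj (Finset.mem_range.mp ha) (Finset.mem_range.mp hb) hab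
  have himg : ∀ ξ : Rˣ, IsPrimitiveRoot ξ ℓ → ∀ c : Rˣ,
      c ∈ (Finset.range ℓ).image (fun b => ξ ^ b) ↔ c ^ ℓ = 1 := by
    intro ξ hξ c
    constructor
    · intro hc
      obtain ⟨b, _, rfl⟩ := Finset.mem_image.mp hc
      rw [← pow_mul, mul_comm, pow_mul, hξ.pow_eq_one, one_pow]
    · intro hc
      have hξ' : IsPrimitiveRoot (ξ : R) ℓ := IsPrimitiveRoot.coe_units_iff.mpr hξ
      have hc' : (c : R) ^ ℓ = 1 := by rw [← Units.val_pow_eq_pow_val, hc, Units.val_one]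
      obtain ⟨i, hi, hic⟩ := hξ'.eq_pow_of_pow_eq_one hc'
      exact Finset.mem_image.mpr ⟨i, Finset.mem_range.mpr hi,
        Units.ext (by rw [Units.val_pow_eq_pow_val, hic])⟩
  rw [key ζ hζ, key ζ' hζ']
  congr 1
  ext c
  rw [himg ζ hζ, himg ζ' hζ']

/-! ## `normU` and `formalT` -/

/-- `∏_{b < ℓ} h(ζ^b q^{1/ℓ})`. -/
def normU (ℓ : ℕ) [NeZero ℓ] (ζ : Rˣ) (h : LaurentSeries R) : LaurentSeries R :=
  qContract ℓ (conjProd ℓ ζ h)

/-- the multiplicative formal Hecke operator `h ↦ h(q^ℓ) ∏_{b < ℓ} h(ζ^b q^{1/ℓ})`. -/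
def formalT (ℓ : ℕ) [NeZero ℓ] (ζ : Rˣ) (h : LaurentSeries R) : LaurentSeries R :=
  qExpand R ℓ h * normU ℓ ζ h

theorem qExpand_normU [IsDomain R] (ℓ : ℕ) [NeZero ℓ] {ζ : Rˣ} (hζ : IsPrimitiveRoot ζ ℓ)
    (h : LaurentSeries R) : qExpand R ℓ (normU ℓ ζ h) = conjProd ℓ ζ h :=
  qExpand_qContract ℓ (conjProd_coeff_of_not_dvd ℓ hζ h)

theorem normU_one (ℓ : ℕ) [NeZero ℓ] (ζ : Rˣ) : normU ℓ ζ (1 : LaurentSeries R) = 1 := by
  rw [normU, conjProd_one]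
  conv_lhs => rw [← map_one (qExpand R ℓ)]
  exact qContract_qExpand ℓ 1

theorem normU_mul [IsDomain R] (ℓ : ℕ) [NeZero ℓ] {ζ : Rˣ} (hζ : IsPrimitiveRoot ζ ℓ)
    (h₁ h₂ : LaurentSeries R) : normU ℓ ζ (h₁ * h₂) = normU ℓ ζ h₁ * normU ℓ ζ h₂ := by
  apply qExpand_injective (R := R) ℓ
  rw [map_mul, qExpand_normU ℓ hζ, qExpand_normU ℓ hζ, qExpand_normU ℓ hζ, conjProd_mul]

theorem formalT_one (ℓ : ℕ) [NeZero ℓ] (ζ : Rˣ) : formalT ℓ ζ (1 : LaurentSeries R) = 1 := by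
  rw [formalT, normU_one, map_one, one_mul]

theorem formalT_mul [IsDomain R] (ℓ : ℕ) [NeZero ℓ] {ζ : Rˣ} (hζ : IsPrimitiveRoot ζ ℓ)
    (h₁ h₂ : LaurentSeries R) : formalT ℓ ζ (h₁ * h₂) = formalT ℓ ζ h₁ * formalT ℓ ζ h₂ := by
  rw [formalT, formalT, formalT, normU_mul ℓ hζ, map_mul]
  ring

/-- `formalT` as a monoid homomorphism. -/
def formalTHom [IsDomain R] (ℓ : ℕ) [NeZero ℓ] {ζ : Rˣ} (hζ : IsPrimitiveRoot ζ ℓ) :
    LaurentSeries R →* LaurentSeries R where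
  toFun := formalT ℓ ζ
  map_one' := formalT_one ℓ ζ
  map_mul' := formalT_mul ℓ hζ

@[simp] theorem formalTHom_apply [IsDomain R] (ℓ : ℕ) [NeZero ℓ] {ζ : Rˣ}
    (hζ : IsPrimitiveRoot ζ ℓ) (h : LaurentSeries R) : formalTHom ℓ hζ h = formalT ℓ ζ h := rfl

theorem formalT_pow [IsDomain R] (ℓ : ℕ) [NeZero ℓ] {ζ : Rˣ} (hζ : IsPrimitiveRoot ζ ℓ)
    (h : LaurentSeries R) (n : ℕ) : formalT ℓ ζ (h ^ n) = formalT ℓ ζ h ^ n :=
  map_pow (formalTHom ℓ hζ) h n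

theorem normU_eq_of_isPrimitiveRoot [IsDomain R] (ℓ : ℕ) [NeZero ℓ] {ζ ζ' : Rˣ}
    (hζ : IsPrimitiveRoot ζ ℓ) (hζ' : IsPrimitiveRoot ζ' ℓ) (h : LaurentSeries R) :
    normU ℓ ζ h = normU ℓ ζ' h := by
  rw [normU, normU, conjProd_eq_of_isPrimitiveRoot ℓ hζ hζ']

theorem formalT_eq_of_isPrimitiveRoot [IsDomain R] (ℓ : ℕ) [NeZero ℓ] {ζ ζ' : Rˣ}
    (hζ : IsPrimitiveRoot ζ ℓ) (hζ' : IsPrimitiveRoot ζ' ℓ) (h : LaurentSeries R) :
    formalT ℓ ζ h = formalT ℓ ζ' h := by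
  rw [formalT, formalT, normU_eq_of_isPrimitiveRoot ℓ hζ hζ']

theorem coeffMap_normU {S : Type*} [CommRing S] (φ : R →+* S) (ℓ : ℕ) [NeZero ℓ] (ζ : Rˣ)
    (h : LaurentSeries R) :
    coeffMap φ (normU ℓ ζ h) = normU ℓ (Units.map (φ : R →* S) ζ) (coeffMap φ h) := by
  rw [normU, normU, coeffMap_qContract, coeffMap_conjProd]

theorem coeffMap_formalT {S : Type*} [CommRing S] (φ : R →+* S) (ℓ : ℕ) [NeZero ℓ] (ζ : Rˣ)
    (h : LaurentSeries R) :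
    coeffMap φ (formalT ℓ ζ h) = formalT ℓ (Units.map (φ : R →* S) ζ) (coeffMap φ h) := by
  rw [formalT, formalT, map_mul, coeffMap_normU, coeffMap_qExpand]

/-- an injective endomorphism of the coefficient ring commutes with `formalT`. -/
theorem coeffMap_formalT_of_injective [IsDomain R] (φ : R →+* R) (hφ : Function.Injective φ)
    (ℓ : ℕ) [NeZero ℓ] {ζ : Rˣ} (hζ : IsPrimitiveRoot ζ ℓ) (h : LaurentSeries R) :
    coeffMap φ (formalT ℓ ζ h) = formalT ℓ ζ (coeffMap φ h) := by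
  rw [coeffMap_formalT]
  refine formalT_eq_of_isPrimitiveRoot ℓ ?_ hζ _
  have h1 : IsPrimitiveRoot ((ζ : R)) ℓ := IsPrimitiveRoot.coe_units_iff.mpr hζ
  have h2 : IsPrimitiveRoot (φ (ζ : R)) ℓ := h1.map_of_injective hφ
  exact IsPrimitiveRoot.coe_units_iff.mp (by simpa using h2)

section Field

variable {L : Type*} [Field L]

theorem formalT_inv (ℓ : ℕ) [NeZero ℓ] {ζ : Lˣ} (hζ : IsPrimitiveRoot ζ ℓ)
    (h : LaurentSeries L) : formalT ℓ ζ h⁻¹ = (formalT ℓ ζ h)⁻¹ := by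
  rcases eq_or_ne h 0 with rfl | hh
  · have : formalT ℓ ζ (0 : LaurentSeries L) = 0 := by rw [formalT, map_zero, zero_mul]
    rw [inv_zero, this, inv_zero]
  · apply eq_inv_of_mul_eq_one_left
    rw [← formalT_mul ℓ hζ, inv_mul_cancel₀ hh, formalT_one]

theorem formalT_div (ℓ : ℕ) [NeZero ℓ] {ζ : Lˣ} (hζ : IsPrimitiveRoot ζ ℓ)
    (h₁ h₂ : LaurentSeries L) : formalT ℓ ζ (h₁ / h₂) = formalT ℓ ζ h₁ / formalT ℓ ζ h₂ := by
  rw [div_eq_mul_inv, div_eq_mul_inv, formalT_mul ℓ hζ, formalT_inv ℓ hζ]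

theorem formalT_ne_zero (ℓ : ℕ) [NeZero ℓ] {ζ : Lˣ} (hζ : IsPrimitiveRoot ζ ℓ)
    {h : LaurentSeries L} (hh : h ≠ 0) : formalT ℓ ζ h ≠ 0 := by
  intro h0
  have := formalT_mul ℓ hζ h h⁻¹
  rw [mul_inv_cancel₀ hh, formalT_one, h0, zero_mul] at this
  exact one_ne_zero this

/-- field automorphisms of the coefficients commute with `formalT`. -/
theorem coeffMap_formalT_ringEquiv (σ : L ≃+* L) (ℓ : ℕ) [NeZero ℓ] {ζ : Lˣ}
    (hζ : IsPrimitiveRoot ζ ℓ) (h : LaurentSeries L) :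
    coeffMap (σ : L →+* L) (formalT ℓ ζ h) = formalT ℓ ζ (coeffMap (σ : L →+* L) h) :=
  coeffMap_formalT_of_injective _ σ.injective ℓ hζ h

end Field

end Fermat.Agent.GR
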