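import Mathlib
import Fermat.Agent.GR.FormalHecke
import Fermat.Prelude.Def_EllipticCurve_FrobeniusTrace
import Fermat.Prelude.Def_FLTPrelim_Ramification

/-!
# GR, block (B): the formal Eichler-Shimura congruence

`A` a valuation subring of `L` over the prime `ℓ`, `σ` a Frobenius element at `A`. Then for every
Laurent series `x` over `L` which has a nonzero reduction `z` (in the sense of `HasRed`),
`σ²(x) * x^ℓ / T_ℓ(σ x)` has reduction `1`; and `σ(x)/x` has reduction `1` for `σ` in the inertia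
group.
-/

set_option autoImplicit false
noncomputable section

namespace Fermat.Agent.GR

open ModularCurve HahnSeries

/-! ## Laurent series in characteristic `ℓ` -/

section General

variable {R S : Type*} [CommRing R] [CommRing S]

theorem coeffMap_ofPowerSeries (f : R →+* S) (u : PowerSeries R) :
    coeffMap f (HahnSeries.ofPowerSeries ℤ R u) = HahnSeries.ofPowerSeries ℤ S (u.map f) := by
  ext k
  rw [coeffMap_coeff]
  rcases le_or_gt 0 k with hk | hk
  · lift k to ℕ using hk
    rw [HahnSeries.ofPowerSeries_apply_coeff, HahnSeries.ofPowerSeries_apply_coeff,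
      PowerSeries.coeff_map]
  · rw [ofPowerSeries_coeff_of_neg _ hk, ofPowerSeries_coeff_of_neg _ hk, map_zero]

theorem qExpand_ofPowerSeries (ℓ : ℕ) [NeZero ℓ] (u : PowerSeries R) :
    qExpand R ℓ (HahnSeries.ofPowerSeries ℤ R u) =
      HahnSeries.ofPowerSeries ℤ R (u.expand ℓ (NeZero.ne ℓ)) := by
  ext k
  have hℓ : (0 : ℤ) < (ℓ : ℤ) := by exact_mod_cast Nat.pos_of_ne_zero (NeZero.ne ℓ)
  by_cases hk : (ℓ : ℤ) ∣ k
  · obtain ⟨m, rfl⟩ := hk
    rw [qExpand_coeff_mul]
    rcases le_or_gt 0 m with hm | hm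
    · lift m to ℕ using hm
      rw [HahnSeries.ofPowerSeries_apply_coeff,
        show (ℓ : ℤ) * (m : ℤ) = ((ℓ * m : ℕ) : ℤ) by push_cast; ring,
        HahnSeries.ofPowerSeries_apply_coeff, PowerSeries.coeff_expand_mul]
    · rw [ofPowerSeries_coeff_of_neg _ hm, ofPowerSeries_coeff_of_neg _ (by nlinarith)]
  · rw [qExpand_coeff_of_not_dvd ℓ _ hk]
    rcases le_or_gt 0 k with hk0 | hk0
    · lift k to ℕ using hk0
      rw [HahnSeries.ofPowerSeries_apply_coeff, PowerSeries.coeff_expand_of_not_dvd]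
      exact fun h => hk (by exact_mod_cast h)
    · rw [ofPowerSeries_coeff_of_neg _ hk0]

theorem coeffMap_injective {f : R →+* S} (hf : Function.Injective f) :
    Function.Injective (coeffMap f) := by
  intro x y h
  ext k
  exact hf (by simpa using congrArg (fun z => HahnSeries.coeff z k) h)

end General

section CharL

variable {k : Type*} [CommRing k] (ℓ : ℕ) [NeZero ℓ] [ExpChar k ℓ]

/-- Freshman's dream for Laurent series. -/
theorem pow_char_eq_qExpand (z : LaurentSeries k) :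
    z ^ ℓ = qExpand k ℓ (coeffMap (frobenius k ℓ) z) := by
  conv_lhs => rw [← LaurentSeries.single_order_mul_powerSeriesPart z]
  conv_rhs => rw [← LaurentSeries.single_order_mul_powerSeriesPart z]
  rw [mul_pow, map_mul, map_mul, coeffMap_single, qExpand_single, HahnSeries.single_pow, map_one,
    one_pow, nsmul_eq_mul]
  congr 1
  have h1 : (z.powerSeriesPart : LaurentSeries k) = HahnSeries.ofPowerSeries ℤ k z.powerSeriesPart :=
    rfl
  rw [h1, coeffMap_ofPowerSeries, qExpand_ofPowerSeries, ← map_pow]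
  congr 1
  have h2 := MvPowerSeries.map_frobenius_expand (σ := Unit) (R := k) ℓ (NeZero.ne ℓ)
    (f := z.powerSeriesPart)
  rw [← PowerSeries.map_expand]
  exact h2.symm

/-- in characteristic `ℓ` (where the `ℓ`-th roots of unity are trivial) the formal Hecke operator
is `F + V`. -/
theorem formalT_one_root (w : LaurentSeries k) :
    formalT ℓ (1 : kˣ) w = qExpand k ℓ w * coeffMap (frobenius k ℓ) w := by
  rw [formalT, normU, conjProd]
  simp only [one_pow, qScale_one, Finset.prod_const, Finset.card_range]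
  rw [pow_char_eq_qExpand ℓ w, qContract_qExpand]

theorem formalT_one_root_frobenius (w : LaurentSeries k) :
    formalT ℓ (1 : kˣ) (coeffMap (frobenius k ℓ) w) =
      w ^ ℓ * coeffMap (frobenius k ℓ) (coeffMap (frobenius k ℓ) w) := by
  rw [formalT_one_root, pow_char_eq_qExpand ℓ w]

end CharL

/-! ## Reduction of Laurent series -/

section Red

variable {L : Type*} [Field L] (A : ValuationSubring L)

/-- `x` (a Laurent series over `L`) is a quotient `P/Q` of series with coefficients in `A`,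
`Q` has nonzero reduction and `P/Q` reduces to `z`. -/
def HasRed (x : LaurentSeries L) (z : LaurentSeries (IsLocalRing.ResidueField A)) : Prop :=
  ∃ P Q : LaurentSeries A, coeffMap (IsLocalRing.residue A) Q ≠ 0 ∧
    coeffMap (IsLocalRing.residue A) P = z * coeffMap (IsLocalRing.residue A) Q ∧
    x * coeffMap A.subtype Q = coeffMap A.subtype P

variable {A}

theorem incl_injective : Function.Injective (coeffMap A.subtype) :=
  coeffMap_injective Subtype.val_injective

theorem HasRed.of_int (y : LaurentSeries A) :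
    HasRed A (coeffMap A.subtype y) (coeffMap (IsLocalRing.residue A) y) :=
  ⟨y, 1, by rw [map_one]; exact one_ne_zero, by rw [map_one, mul_one], by rw [map_one, mul_one]⟩

theorem HasRed.one : HasRed A 1 1 := by
  have := HasRed.of_int (A := A) 1
  rwa [map_one, map_one] at this

theorem HasRed.unique {x : LaurentSeries L} {z z' : LaurentSeries (IsLocalRing.ResidueField A)}
    (h : HasRed A x z) (h' : HasRed A x z') : z = z' := by
  obtain ⟨P, Q, hQ, hP, hx⟩ := h
  obtain ⟨P', Q', hQ', hP', hx'⟩ := h'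
  have h1 : P * Q' = P' * Q := by
    apply incl_injective (A := A)
    rw [map_mul, map_mul, ← hx, ← hx']
    ring
  have h2 := congrArg (coeffMap (IsLocalRing.residue A)) h1
  rw [map_mul, map_mul, hP, hP'] at h2
  have h3 : (z - z') * (coeffMap (IsLocalRing.residue A) Q * coeffMap (IsLocalRing.residue A) Q')
      = 0 := by
    linear_combination h2
  rcases mul_eq_zero.mp h3 with h4 | h4
  · exact sub_eq_zero.mp h4
  · exact absurd h4 (mul_ne_zero hQ hQ')

theorem HasRed.mul {x x' : LaurentSeries L} {z z' : LaurentSeries (IsLocalRing.ResidueField A)}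
    (h : HasRed A x z) (h' : HasRed A x' z') : HasRed A (x * x') (z * z') := by
  obtain ⟨P, Q, hQ, hP, hx⟩ := h
  obtain ⟨P', Q', hQ', hP', hx'⟩ := h'
  refine ⟨P * P', Q * Q', ?_, ?_, ?_⟩
  · rw [map_mul]; exact mul_ne_zero hQ hQ'
  · rw [map_mul, map_mul, hP, hP']; ring
  · rw [map_mul, map_mul, ← hx, ← hx']; ring

theorem HasRed.add {x x' : LaurentSeries L} {z z' : LaurentSeries (IsLocalRing.ResidueField A)}
    (h : HasRed A x z) (h' : HasRed A x' z') : HasRed A (x + x') (z + z') := by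
  obtain ⟨P, Q, hQ, hP, hx⟩ := h
  obtain ⟨P', Q', hQ', hP', hx'⟩ := h'
  refine ⟨P * Q' + P' * Q, Q * Q', ?_, ?_, ?_⟩
  · rw [map_mul]; exact mul_ne_zero hQ hQ'
  · rw [map_add, map_mul, map_mul, map_mul, hP, hP']; ring
  · rw [map_add, map_mul, map_mul, map_mul, ← hx, ← hx']; ring

theorem HasRed.pow {x : LaurentSeries L} {z : LaurentSeries (IsLocalRing.ResidueField A)}
    (h : HasRed A x z) (n : ℕ) : HasRed A (x ^ n) (z ^ n) := by
  induction n with
  | zero => simpa using HasRed.one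
  | succ n ih => rw [pow_succ, pow_succ]; exact ih.mul h

theorem HasRed.ne_zero {x : LaurentSeries L} {z : LaurentSeries (IsLocalRing.ResidueField A)}
    (h : HasRed A x z) (hz : z ≠ 0) : x ≠ 0 := by
  rintro rfl
  obtain ⟨P, Q, hQ, hP, hx⟩ := h
  rw [zero_mul] at hx
  have : P = 0 := incl_injective (A := A) (by rw [← hx, map_zero])
  rw [this, map_zero] at hP
  exact (mul_ne_zero hz hQ) hP.symm

theorem HasRed.inv {x : LaurentSeries L} {z : LaurentSeries (IsLocalRing.ResidueField A)}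
    (h : HasRed A x z) (hz : z ≠ 0) : HasRed A x⁻¹ z⁻¹ := by
  have hx0 := h.ne_zero hz
  obtain ⟨P, Q, hQ, hP, hx⟩ := h
  refine ⟨Q, P, ?_, ?_, ?_⟩
  · rw [hP]; exact mul_ne_zero hz hQ
  · rw [hP, ← mul_assoc, inv_mul_cancel₀ hz, one_mul]
  · rw [← hx, ← mul_assoc, inv_mul_cancel₀ hx0, one_mul]

theorem HasRed.div {x x' : LaurentSeries L} {z z' : LaurentSeries (IsLocalRing.ResidueField A)}
    (h : HasRed A x z) (h' : HasRed A x' z') (hz' : z' ≠ 0) : HasRed A (x / x') (z / z') := by
  rw [div_eq_mul_inv, div_eq_mul_inv]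
  exact h.mul (h'.inv hz')

/-- if an integral series has reduction `z` in the sense of `HasRed`, then `z` is its reduction. -/
theorem HasRed.eq_of_int {y : LaurentSeries A} {z : LaurentSeries (IsLocalRing.ResidueField A)}
    (h : HasRed A (coeffMap A.subtype y) z) : coeffMap (IsLocalRing.residue A) y = z :=
  (HasRed.of_int y).unique h

/-- transport of `HasRed` along a compatible triple of multiplicative operators. -/
theorem HasRed.map {x : LaurentSeries L} {z : LaurentSeries (IsLocalRing.ResidueField A)}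
    (h : HasRed A x z)
    (ΦA : LaurentSeries A → LaurentSeries A) (ΦL : LaurentSeries L → LaurentSeries L)
    (Φk : LaurentSeries (IsLocalRing.ResidueField A) → LaurentSeries (IsLocalRing.ResidueField A))
    (hL : ∀ a b, ΦL (a * b) = ΦL a * ΦL b) (hk : ∀ a b, Φk (a * b) = Φk a * Φk b)
    (h1 : ∀ y, coeffMap A.subtype (ΦA y) = ΦL (coeffMap A.subtype y))
    (h2 : ∀ y, coeffMap (IsLocalRing.residue A) (ΦA y) = Φk (coeffMap (IsLocalRing.residue A) y))
    (h3 : ∀ w, w ≠ 0 → Φk w ≠ 0) : HasRed A (ΦL x) (Φk z) := by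
  obtain ⟨P, Q, hQ, hP, hx⟩ := h
  refine ⟨ΦA P, ΦA Q, ?_, ?_, ?_⟩
  · rw [h2]; exact h3 _ hQ
  · rw [h2, h2, hP, hk]
  · rw [h1, h1, ← hL, hx]

end Red

/-! ## Roots of unity and the residue characteristic -/

section Roots

variable {L : Type*} [Field L] (A : ValuationSubring L)

theorem mem_of_pow_eq_one {ζ : L} {n : ℕ} (hn : n ≠ 0) (hζ : ζ ^ n = 1) : ζ ∈ A := by
  rcases A.mem_or_inv_mem ζ with h | h
  · exact h
  · obtain ⟨m, rfl⟩ := Nat.exists_eq_succ_of_ne_zero hn
    have hζ0 : ζ ≠ 0 := by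
      rintro rfl
      simp at hζ
    have : ζ = ζ⁻¹ ^ m := by
      rw [inv_pow]
      apply eq_inv_of_mul_eq_one_left
      rw [← pow_succ', hζ]
    rw [this]
    exact pow_mem h m

/-- a root of unity of `L`, as a unit of `A`. -/
def rootUnit (ζ : Lˣ) {n : ℕ} (hn : n ≠ 0) (hζ : ζ ^ n = 1) : Aˣ where
  val := ⟨(ζ : L), mem_of_pow_eq_one A hn (by rw [← Units.val_pow_eq_pow_val, hζ, Units.val_one])⟩
  inv := ⟨((ζ⁻¹ : Lˣ) : L), mem_of_pow_eq_one A hn
    (by rw [← Units.val_pow_eq_pow_val, inv_pow, hζ, inv_one, Units.val_one])⟩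
  val_inv := Subtype.ext (by simp)
  inv_val := Subtype.ext (by simp)

@[simp] theorem map_subtype_rootUnit (ζ : Lˣ) {n : ℕ} (hn : n ≠ 0) (hζ : ζ ^ n = 1) :
    Units.map (A.subtype : A →* L) (rootUnit A ζ hn hζ) = ζ :=
  Units.ext rfl

theorem rootUnit_pow (ζ : Lˣ) {n : ℕ} (hn : n ≠ 0) (hζ : ζ ^ n = 1) :
    rootUnit A ζ hn hζ ^ n = 1 := by
  apply Units.ext
  apply Subtype.ext
  have := congrArg Units.val hζ
  simpa [rootUnit] using this

theorem isPrimitiveRoot_rootUnit {ζ : Lˣ} {n : ℕ} (hn : n ≠ 0) (hζ : IsPrimitiveRoot ζ n) :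
    IsPrimitiveRoot (rootUnit A ζ hn hζ.pow_eq_one) n := by
  have hinj : Function.Injective (Units.map (A.subtype : A →* L)) :=
    Units.map_injective Subtype.val_injective
  refine (IsPrimitiveRoot.map_iff_of_injective hinj).mp ?_
  rw [map_subtype_rootUnit]
  exact hζ

variable {A}

theorem residue_natCast_eq_zero {ℓ : ℕ} (hA : A.LiesOverPrime ℓ) :
    ((ℓ : ℕ) : IsLocalRing.ResidueField A) = 0 := by
  have h1 : ((ℓ : A) : L) ∈ A.nonunits := by
    have h0 : (ℓ : L) ∈ A.nonunits := hA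
    simpa using h0
  have h2 : (ℓ : A) ∈ IsLocalRing.maximalIdeal A := by
    rw [IsLocalRing.mem_maximalIdeal]
    exact (ValuationSubring.coe_mem_nonunits_iff).mp h1
  have h3 := (IsLocalRing.residue_eq_zero_iff (ℓ : A)).mpr h2
  simpa using h3

theorem charP_residueField {ℓ : ℕ} (hℓ : ℓ.Prime) (hA : A.LiesOverPrime ℓ) :
    CharP (IsLocalRing.ResidueField A) ℓ :=
  (CharP.charP_iff_prime_eq_zero hℓ).mpr (residue_natCast_eq_zero hA)

theorem map_residue_rootUnit {ℓ : ℕ} (hℓ : ℓ.Prime) (hA : A.LiesOverPrime ℓ) (ζ : Lˣ)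
    (hζ : ζ ^ ℓ = 1) :
    Units.map (IsLocalRing.residue A : A →* IsLocalRing.ResidueField A)
      (rootUnit A ζ hℓ.ne_zero hζ) = 1 := by
  have := charP_residueField hℓ hA
  have := Fact.mk hℓ
  apply Units.ext
  apply frobenius_inj (IsLocalRing.ResidueField A) ℓ
  have h := congrArg (fun u : Aˣ => IsLocalRing.residue A (u : A)) (rootUnit_pow A ζ hℓ.ne_zero hζ)
  simp only [Units.val_pow_eq_pow_val, map_pow, Units.val_one, map_one] at h
  simpa [frobenius_def] using h

end Roots

/-! ## The action of the decomposition group on integral series -/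

section Decomp

variable {K L : Type*} [Field K] [Field L] [Algebra K L] {A : ValuationSubring L}

/-- the ring endomorphism of `A` induced by an element of the decomposition group. -/
def decompHom (σ : L ≃ₐ[K] L) (hσ : σ ∈ A.decompositionSubgroup K) : A →+* A :=
  MulSemiringAction.toRingHom (A.decompositionSubgroup K) A ⟨σ, hσ⟩

@[simp] theorem coe_decompHom (σ : L ≃ₐ[K] L) (hσ : σ ∈ A.decompositionSubgroup K) (a : A) :
    ((decompHom σ hσ a : A) : L) = σ a := rfl

theorem residue_decompHom (σ : L ≃ₐ[K] L) (hσ : σ ∈ A.decompositionSubgroup K) (a : A) :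
    IsLocalRing.residue A (decompHom σ hσ a) =
      (⟨σ, hσ⟩ : A.decompositionSubgroup K) • IsLocalRing.residue A a :=
  IsLocalRing.ResidueField.residue_smul _ _ _

theorem incl_decompHom (σ : L ≃ₐ[K] L) (hσ : σ ∈ A.decompositionSubgroup K)
    (y : LaurentSeries A) :
    coeffMap A.subtype (coeffMap (decompHom σ hσ) y) =
      coeffMap (σ : L →+* L) (coeffMap A.subtype y) := by
  ext n
  rfl

theorem red_decompHom_of_frobenius {ℓ : ℕ} [ExpChar (IsLocalRing.ResidueField A) ℓ]
    {σ : L ≃ₐ[K] L} (hσ : A.IsFrobeniusAt σ ℓ) (y : LaurentSeries A) :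
    coeffMap (IsLocalRing.residue A) (coeffMap (decompHom σ hσ.mem_decompositionSubgroup) y) =
      coeffMap (frobenius (IsLocalRing.ResidueField A) ℓ) (coeffMap (IsLocalRing.residue A) y) := by
  ext n
  simp only [coeffMap_coeff]
  rw [residue_decompHom, hσ.smul_residue_eq, frobenius_def]

theorem red_decompHom_of_inertia {σ : L ≃ₐ[K] L} (hσ : σ ∈ A.inertiaSubgroupIn K) :
    ∃ hd : σ ∈ A.decompositionSubgroup K, ∀ y : LaurentSeries A,
      coeffMap (IsLocalRing.residue A) (coeffMap (decompHom σ hd) y) =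
        coeffMap (IsLocalRing.residue A) y := by
  obtain ⟨g, hg, hgσ⟩ := hσ
  have hd : σ ∈ A.decompositionSubgroup K := hgσ ▸ g.2
  have hgd : (⟨σ, hd⟩ : A.decompositionSubgroup K) = g := Subtype.ext hgσ.symm
  refine ⟨hd, fun y => ?_⟩
  ext n
  simp only [coeffMap_coeff]
  rw [residue_decompHom, hgd]
  have h1 : MulSemiringAction.toRingAut (A.decompositionSubgroup K) (IsLocalRing.ResidueField A) g
      = 1 := hg
  have h2 := congrArg (fun f : RingAut (IsLocalRing.ResidueField A) =>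
    f (IsLocalRing.residue A (y.coeff n))) h1
  exact h2

end Decomp

/-! ## The formal Eichler-Shimura congruence -/

section ES

variable {K L : Type*} [Field K] [Field L] [Algebra K L] {A : ValuationSubring L}

theorem coeffMap_ne_zero_of_injective {R S : Type*} [CommRing R] [CommRing S] {f : R →+* S}
    (hf : Function.Injective f) {w : LaurentSeries R} (hw : w ≠ 0) : coeffMap f w ≠ 0 := by
  intro h
  exact hw (coeffMap_injective hf (by rw [h, map_zero]))

/-- (ES0) the formal Eichler-Shimura congruence for integral series. -/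
theorem red_formalT_frobenius {ℓ : ℕ} [NeZero ℓ] (hℓ : ℓ.Prime) (hA : A.LiesOverPrime ℓ)
    {σ : L ≃ₐ[K] L} (hσ : A.IsFrobeniusAt σ ℓ) (ζ : Lˣ) (hζ : ζ ^ ℓ = 1) (y : LaurentSeries A) :
    coeffMap (IsLocalRing.residue A)
        (formalT ℓ (rootUnit A ζ hℓ.ne_zero hζ)
          (coeffMap (decompHom σ hσ.mem_decompositionSubgroup) y)) =
      coeffMap (IsLocalRing.residue A) y ^ ℓ *
        coeffMap (IsLocalRing.residue A)
          (coeffMap (decompHom σ hσ.mem_decompositionSubgroup)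
            (coeffMap (decompHom σ hσ.mem_decompositionSubgroup) y)) := by
  have := charP_residueField hℓ hA
  have := Fact.mk hℓ
  have : ExpChar (IsLocalRing.ResidueField A) ℓ := ExpChar.prime hℓ
  rw [coeffMap_formalT, map_residue_rootUnit hℓ hA, red_decompHom_of_frobenius hσ,
    red_decompHom_of_frobenius hσ, red_decompHom_of_frobenius hσ, formalT_one_root_frobenius]

/-- reduction commutes with a Frobenius element. -/
theorem HasRed.map_frobenius {ℓ : ℕ} [ExpChar (IsLocalRing.ResidueField A) ℓ]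
    {σ : L ≃ₐ[K] L} (hσ : A.IsFrobeniusAt σ ℓ) {x : LaurentSeries L}
    {z : LaurentSeries (IsLocalRing.ResidueField A)} (h : HasRed A x z) :
    HasRed A (coeffMap (σ : L →+* L) x)
      (coeffMap (frobenius (IsLocalRing.ResidueField A) ℓ) z) :=
  h.map (coeffMap (decompHom σ hσ.mem_decompositionSubgroup)) (coeffMap (σ : L →+* L))
    (coeffMap (frobenius (IsLocalRing.ResidueField A) ℓ)) (map_mul _) (map_mul _)
    (incl_decompHom σ _) (red_decompHom_of_frobenius hσ)
    (fun _ hw => coeffMap_ne_zero_of_injective (RingHom.injective _) hw)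

/-- reduction of `T_ℓ x`. -/
theorem HasRed.map_formalT {ℓ : ℕ} [NeZero ℓ] (hℓ : ℓ.Prime) (hA : A.LiesOverPrime ℓ)
    {ζ : Lˣ} (hζ : IsPrimitiveRoot ζ ℓ) {x : LaurentSeries L}
    {z : LaurentSeries (IsLocalRing.ResidueField A)} (h : HasRed A x z) :
    HasRed A (formalT ℓ ζ x) (formalT ℓ (1 : (IsLocalRing.ResidueField A)ˣ) z) := by
  have := charP_residueField hℓ hA
  have : ExpChar (IsLocalRing.ResidueField A) ℓ := ExpChar.prime hℓ
  refine h.map (Fermat.Agent.GR.formalT ℓ (rootUnit A ζ hℓ.ne_zero hζ.pow_eq_one))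
    (Fermat.Agent.GR.formalT ℓ ζ)
    (Fermat.Agent.GR.formalT ℓ (1 : (IsLocalRing.ResidueField A)ˣ)) (formalT_mul ℓ hζ) ?_ ?_ ?_ ?_
  · intro a b
    rw [formalT_one_root, formalT_one_root, formalT_one_root, map_mul, map_mul]
    ring
  · intro y
    rw [coeffMap_formalT, map_subtype_rootUnit]
  · intro y
    rw [coeffMap_formalT, map_residue_rootUnit hℓ hA]
  · intro w hw
    rw [formalT_one_root]
    exact mul_ne_zero (fun h0 => hw (qExpand_injective ℓ (by rw [h0, map_zero])))
      (coeffMap_ne_zero_of_injective (RingHom.injective _) hw)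

/-- **(ES1) formal Eichler-Shimura.** -/
theorem hasRed_eichlerShimura {ℓ : ℕ} [NeZero ℓ] (hℓ : ℓ.Prime) (hA : A.LiesOverPrime ℓ)
    {σ : L ≃ₐ[K] L} (hσ : A.IsFrobeniusAt σ ℓ) {ζ : Lˣ} (hζ : IsPrimitiveRoot ζ ℓ)
    {x : LaurentSeries L} {z : LaurentSeries (IsLocalRing.ResidueField A)} (h : HasRed A x z)
    (hz : z ≠ 0) :
    HasRed A (coeffMap (σ : L →+* L) (coeffMap (σ : L →+* L) x) * x ^ ℓ /
      formalT ℓ ζ (coeffMap (σ : L →+* L) x)) 1 := by
  have := charP_residueField hℓ hA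
  have : ExpChar (IsLocalRing.ResidueField A) ℓ := ExpChar.prime hℓ
  have h1 := h.map_frobenius hσ
  have h2 := h1.map_frobenius hσ
  have h3 := h1.map_formalT hℓ hA hζ
  rw [formalT_one_root_frobenius] at h3
  have hF : ∀ w : LaurentSeries (IsLocalRing.ResidueField A), w ≠ 0 →
      coeffMap (frobenius (IsLocalRing.ResidueField A) ℓ) w ≠ 0 :=
    fun _ hw => coeffMap_ne_zero_of_injective (RingHom.injective _) hw
  have hne : z ^ ℓ * coeffMap (frobenius (IsLocalRing.ResidueField A) ℓ)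
      (coeffMap (frobenius (IsLocalRing.ResidueField A) ℓ) z) ≠ 0 :=
    mul_ne_zero (pow_ne_zero _ hz) (hF _ (hF _ hz))
  have h4 := (h2.mul (h.pow ℓ)).div h3 hne
  rwa [mul_comm (coeffMap _ _) (z ^ ℓ), div_self hne] at h4

/-- **(IN1)** inertia acts trivially after reduction. -/
theorem hasRed_inertia {σ : L ≃ₐ[K] L} (hσ : σ ∈ A.inertiaSubgroupIn K)
    {x : LaurentSeries L} {z : LaurentSeries (IsLocalRing.ResidueField A)} (h : HasRed A x z)
    (hz : z ≠ 0) : HasRed A (coeffMap (σ : L →+* L) x / x) 1 := by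
  obtain ⟨hd, hred⟩ := red_decompHom_of_inertia hσ
  have h1 : HasRed A (coeffMap (σ : L →+* L) x) z :=
    h.map (coeffMap (decompHom σ hd)) (coeffMap (σ : L →+* L)) id (map_mul _) (fun _ _ => rfl)
      (incl_decompHom σ hd) hred (fun _ hw => hw)
  have h2 := h1.div h hz
  rwa [div_self hz] at h2

/-! ### unit versions -/

/-- `x` is (the image of) a unit of `A((q))`. -/
def IsIntUnit (A : ValuationSubring L) (x : LaurentSeries L) : Prop :=
  ∃ y y' : LaurentSeries A, y * y' = 1 ∧ coeffMap A.subtype y = x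

theorem IsIntUnit.hasRed {x : LaurentSeries L} (h : IsIntUnit A x) :
    ∃ z : LaurentSeries (IsLocalRing.ResidueField A), z ≠ 0 ∧ HasRed A x z := by
  obtain ⟨y, y', hy, rfl⟩ := h
  refine ⟨_, ?_, HasRed.of_int y⟩
  intro h0
  have := congrArg (coeffMap (IsLocalRing.residue A)) hy
  rw [map_mul, h0, zero_mul, map_one] at this
  exact zero_ne_one this

theorem IsIntUnit.mul {x x' : LaurentSeries L} (h : IsIntUnit A x) (h' : IsIntUnit A x') :
    IsIntUnit A (x * x') := by
  obtain ⟨y, y', hy, rfl⟩ := h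
  obtain ⟨w, w', hw, rfl⟩ := h'
  exact ⟨y * w, y' * w', by rw [mul_mul_mul_comm, hy, hw, one_mul], map_mul _ _ _⟩

theorem IsIntUnit.one : IsIntUnit A 1 := ⟨1, 1, one_mul 1, map_one _⟩

theorem IsIntUnit.pow {x : LaurentSeries L} (h : IsIntUnit A x) (n : ℕ) : IsIntUnit A (x ^ n) := by
  induction n with
  | zero => simpa using IsIntUnit.one
  | succ n ih => rw [pow_succ]; exact ih.mul h

theorem IsIntUnit.inv {x : LaurentSeries L} (h : IsIntUnit A x) : IsIntUnit A x⁻¹ := by
  obtain ⟨y, y', hy, rfl⟩ := h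
  refine ⟨y', y, by rw [mul_comm, hy], ?_⟩
  apply eq_inv_of_mul_eq_one_left
  rw [← map_mul, mul_comm, hy, map_one]

theorem IsIntUnit.div {x x' : LaurentSeries L} (h : IsIntUnit A x) (h' : IsIntUnit A x') :
    IsIntUnit A (x / x') := by
  rw [div_eq_mul_inv]; exact h.mul h'.inv

theorem IsIntUnit.map {x : LaurentSeries L} (h : IsIntUnit A x)
    (ΦA : LaurentSeries A → LaurentSeries A) (ΦL : LaurentSeries L → LaurentSeries L)
    (hA1 : ΦA 1 = 1) (hAm : ∀ a b, ΦA (a * b) = ΦA a * ΦA b)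
    (h1 : ∀ y, coeffMap A.subtype (ΦA y) = ΦL (coeffMap A.subtype y)) : IsIntUnit A (ΦL x) := by
  obtain ⟨y, y', hy, rfl⟩ := h
  exact ⟨ΦA y, ΦA y', by rw [← hAm, hy, hA1], h1 y⟩

theorem IsIntUnit.map_coeffMap {x : LaurentSeries L} (h : IsIntUnit A x) {σ : L ≃ₐ[K] L}
    (hσ : σ ∈ A.decompositionSubgroup K) : IsIntUnit A (coeffMap (σ : L →+* L) x) :=
  h.map (ModularCurve.coeffMap (decompHom σ hσ)) _ (map_one _) (map_mul _) (incl_decompHom σ hσ)

theorem IsIntUnit.map_formalT {x : LaurentSeries L} (h : IsIntUnit A x) {ℓ : ℕ} [NeZero ℓ]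
    {ζ : Lˣ} (hζ : IsPrimitiveRoot ζ ℓ) : IsIntUnit A (formalT ℓ ζ x) :=
  h.map (Fermat.Agent.GR.formalT ℓ (rootUnit A ζ (NeZero.ne ℓ) hζ.pow_eq_one)) _
    (formalT_one _ _) (formalT_mul ℓ (isPrimitiveRoot_rootUnit A (NeZero.ne ℓ) hζ))
    (fun y => by rw [coeffMap_formalT, map_subtype_rootUnit])

/-- `x ≡ 1`: `x` has coefficients in `A` and reduces to `1`. -/
def CongrOne (A : ValuationSubring L) (x : LaurentSeries L) : Prop :=
  ∃ y : LaurentSeries A, coeffMap A.subtype y = x ∧ coeffMap (IsLocalRing.residue A) y = 1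

theorem IsIntUnit.congrOne_of_hasRed {x : LaurentSeries L} (h : IsIntUnit A x)
    (h1 : HasRed A x 1) : CongrOne A x := by
  obtain ⟨y, y', _, rfl⟩ := h
  exact ⟨y, rfl, h1.eq_of_int⟩

/-- **(ES2)** unit version of the formal Eichler-Shimura congruence. -/
theorem congrOne_eichlerShimura {ℓ : ℕ} [NeZero ℓ] (hℓ : ℓ.Prime) (hA : A.LiesOverPrime ℓ)
    {σ : L ≃ₐ[K] L} (hσ : A.IsFrobeniusAt σ ℓ) {ζ : Lˣ} (hζ : IsPrimitiveRoot ζ ℓ)
    {x : LaurentSeries L} (h : IsIntUnit A x) :
    CongrOne A (coeffMap (σ : L →+* L) (coeffMap (σ : L →+* L) x) * x ^ ℓ /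
      formalT ℓ ζ (coeffMap (σ : L →+* L) x)) := by
  obtain ⟨z, hz, hred⟩ := h.hasRed
  have hd := hσ.mem_decompositionSubgroup
  exact ((((h.map_coeffMap hd).map_coeffMap hd).mul (h.pow ℓ)).div ((h.map_coeffMap hd).map_formalT hζ)).congrOne_of_hasRed
    (hasRed_eichlerShimura hℓ hA hσ hζ hred hz)

/-- **(IN2)** unit version for inertia. -/
theorem congrOne_inertia {σ : L ≃ₐ[K] L} (hσ : σ ∈ A.inertiaSubgroupIn K)
    {x : LaurentSeries L} (h : IsIntUnit A x) : CongrOne A (coeffMap (σ : L →+* L) x / x) := by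
  obtain ⟨z, hz, hred⟩ := h.hasRed
  obtain ⟨hd, -⟩ := red_decompHom_of_inertia hσ
  exact ((h.map_coeffMap hd).div h).congrOne_of_hasRed (hasRed_inertia hσ hred hz)

end ES

end Fermat.Agent.GR
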