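import Mathlib
import Fermat.Agent.GR.FormalES
import Fermat.Prelude.Def_ModularCurve_ArithmeticGalois
import Fermat.Prelude.Def_ModularCurve_JqCoeff

/-!
# GR, block (B'): every nonzero modular function has, up to a constant, a nonzero reduction

`A` is an arbitrary valuation subring of an arbitrary field `L ⊇ ℚ` (no discreteness, no rank
hypothesis).  Every `x ≠ 0` in `L(j(q^d) : d ∣ M) ⊆ L((q))` satisfies `HasRed A (c • x) z` for some
constant `c ≠ 0` and some `z ≠ 0`.

Key point: an `L`-linear combination `P = ∑ c_α J_α` of series `J_α ∈ ℤ((q))` has a coefficient of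
maximal valuation, because the `ℤ`-module generated by the rows `(J_α.coeff k)_α` is noetherian,
so all coefficients of `P` are `ℤ`-linear combinations of finitely many of them.
-/

set_option autoImplicit false
noncomputable section

namespace Fermat.Agent.GR

open ModularCurve HahnSeries

variable {L : Type*} [Field L]

/-- `ℤ((q)) → L((q))`. -/
abbrev intS (L : Type*) [Field L] : LaurentSeries ℤ →+* LaurentSeries L :=
  coeffMap (Int.castRingHom L)

/-- the `L`-span of `ℤ((q))` inside `L((q))`. -/
def PSer (L : Type*) [Field L] : Submodule L (LaurentSeries L) :=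
  Submodule.span L (Set.range (intS L))

theorem intS_mem_PSer (J : LaurentSeries ℤ) : intS L J ∈ PSer L :=
  Submodule.subset_span ⟨J, rfl⟩

theorem one_mem_PSer : (1 : LaurentSeries L) ∈ PSer L := by
  have := intS_mem_PSer (L := L) 1
  rwa [map_one] at this

theorem algebraMap_eq_C (c : L) : algebraMap L (LaurentSeries L) c = HahnSeries.C c :=
  algebraMap_laurentSeries_eq_single L c

theorem algebraMap_mem_PSer (c : L) : algebraMap L (LaurentSeries L) c ∈ PSer L := by
  have := (PSer L).smul_mem c one_mem_PSer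
  rwa [← HahnSeries.C_mul_eq_smul, mul_one, ← algebraMap_eq_C] at this

theorem mul_mem_PSer {P Q : LaurentSeries L} (hP : P ∈ PSer L) (hQ : Q ∈ PSer L) :
    P * Q ∈ PSer L := by
  induction hP using Submodule.span_induction with
  | mem x hx =>
    obtain ⟨a, rfl⟩ := hx
    induction hQ using Submodule.span_induction with
    | mem y hy =>
      obtain ⟨b, rfl⟩ := hy
      rw [← map_mul]
      exact intS_mem_PSer _
    | zero => rw [mul_zero]; exact (PSer L).zero_mem
    | add y z _ _ hy hz => rw [mul_add]; exact (PSer L).add_mem hy hz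
    | smul r y _ hy =>
      have := (PSer L).smul_mem r hy
      rw [← HahnSeries.C_mul_eq_smul] at this ⊢
      rwa [mul_left_comm]
  | zero => rw [zero_mul]; exact (PSer L).zero_mem
  | add y z _ _ hy hz => rw [add_mul]; exact (PSer L).add_mem hy hz
  | smul r y _ hy =>
    have := (PSer L).smul_mem r hy
    rw [← HahnSeries.C_mul_eq_smul] at this ⊢
    rwa [mul_assoc]

theorem subring_closure_le_PSer {x : LaurentSeries L}
    (hx : x ∈ Subring.closure
      (Set.range (algebraMap L (LaurentSeries L)) ∪ Set.range (intS L))) : x ∈ PSer L := by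
  induction hx using Subring.closure_induction with
  | mem y hy =>
    rcases hy with ⟨c, rfl⟩ | ⟨J, rfl⟩
    · exact algebraMap_mem_PSer c
    · exact intS_mem_PSer J
  | zero => exact (PSer L).zero_mem
  | one => exact one_mem_PSer
  | add x y _ _ hx hy => exact (PSer L).add_mem hx hy
  | neg x _ hx => exact (PSer L).neg_mem hx
  | mul x y _ _ hx hy => exact mul_mem_PSer hx hy

/-- an element of `PSer L` has a coefficient of maximal valuation. -/
theorem exists_max_coeff (A : ValuationSubring L) {P : LaurentSeries L} (hP : P ∈ PSer L)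
    (hP0 : P ≠ 0) :
    ∃ k₀ : ℤ, P.coeff k₀ ≠ 0 ∧ ∀ k, A.valuation (P.coeff k) ≤ A.valuation (P.coeff k₀) := by
  classical
  obtain ⟨c, rfl⟩ := Finsupp.mem_span_range_iff_exists_finsupp.mp hP
  set s := c.support with hs
  let row : ℤ → (s → ℤ) := fun k J => (J : LaurentSeries ℤ).coeff k
  let φ : (s → ℤ) →ₗ[ℤ] L := Fintype.linearCombination ℤ (fun J : s => c J)
  have hcoeff : ∀ k, (c.sum fun J a => a • intS L J).coeff k = φ (row k) := by
    intro k
    rw [Finsupp.sum, HahnSeries.coeff_sum, Fintype.linearCombination_apply,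
      ← Finset.sum_coe_sort s]
    refine Finset.sum_congr rfl fun J _ => ?_
    rw [HahnSeries.coeff_smul, coeffMap_coeff, zsmul_eq_mul, smul_eq_mul, mul_comm]
    rfl
  have hfg : (Submodule.span ℤ (Set.range row)).FG := IsNoetherian.noetherian _
  obtain ⟨s', hs', hspan⟩ := (Submodule.fg_span_iff_fg_span_finset_subset _).mp hfg
  have hrow : ∀ k, row k ∈ Submodule.span ℤ (s' : Set (s → ℤ)) := fun k =>
    hspan ▸ Submodule.subset_span ⟨k, rfl⟩
  have hne : s'.Nonempty := by
    by_contra hemp
    rw [Finset.not_nonempty_iff_eq_empty] at hemp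
    apply hP0
    ext k
    have := hrow k
    rw [hemp, Finset.coe_empty, Submodule.span_empty, Submodule.mem_bot] at this
    rw [hcoeff, this, map_zero, HahnSeries.coeff_zero]
  obtain ⟨w₀, hw₀, hmax⟩ := Finset.exists_max_image s' (fun w => A.valuation (φ w)) hne
  obtain ⟨k₀, rfl⟩ := hs' hw₀
  have hall : ∀ w ∈ Submodule.span ℤ (s' : Set (s → ℤ)),
      A.valuation (φ w) ≤ A.valuation (φ (row k₀)) := by
    intro w hw
    induction hw using Submodule.span_induction with
    | mem x hx => exact hmax x hx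
    | zero => simp
    | add x y _ _ hx hy => rw [map_add]; exact Valuation.map_add_le _ hx hy
    | smul n x _ hx =>
      rw [map_smul, zsmul_eq_mul, map_mul]
      have h1 : A.valuation (n : L) ≤ 1 := (A.valuation_le_one_iff _).mpr (intCast_mem A n)
      calc A.valuation (n : L) * A.valuation (φ x) ≤ 1 * A.valuation (φ x) :=
            mul_le_mul_left h1 _
        _ = A.valuation (φ x) := one_mul _
        _ ≤ _ := hx
  have hle : ∀ k, A.valuation ((c.sum fun J a => a • intS L J).coeff k) ≤
      A.valuation ((c.sum fun J a => a • intS L J).coeff k₀) := by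
    intro k
    rw [hcoeff, hcoeff]
    exact hall _ (hrow k)
  refine ⟨k₀, ?_, hle⟩
  intro h0
  apply hP0
  ext k
  have := hle k
  rw [h0, map_zero, le_zero_iff, map_eq_zero] at this
  rw [this, HahnSeries.coeff_zero]

/-- a series with coefficients in `A` comes from `A((q))`. -/
theorem exists_int_of_coeff_mem (A : ValuationSubring L) (x : LaurentSeries L)
    (h : ∀ k, x.coeff k ∈ A) : ∃ y : LaurentSeries A, coeffMap A.subtype y = x := by
  refine ⟨⟨fun k => ⟨x.coeff k, h k⟩, x.isPWO_support.mono fun k hk => ?_⟩, ?_⟩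
  · intro h0
    exact hk (Subtype.ext h0)
  · ext k
    rfl

theorem exists_normalize (A : ValuationSubring L) {P : LaurentSeries L} (hP : P ∈ PSer L)
    (hP0 : P ≠ 0) :
    ∃ c : L, c ≠ 0 ∧ ∃ y : LaurentSeries A, coeffMap A.subtype y = c • P ∧
      coeffMap (IsLocalRing.residue A) y ≠ 0 := by
  obtain ⟨k₀, hk₀, hmax⟩ := exists_max_coeff A hP hP0
  have hmem : ∀ k, ((P.coeff k₀)⁻¹ • P).coeff k ∈ A := by
    intro k
    rw [HahnSeries.coeff_smul, smul_eq_mul, ← A.valuation_le_one_iff, map_mul, map_inv₀]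
    have hpos : A.valuation (P.coeff k₀) ≠ 0 := (map_ne_zero _).mpr hk₀
    rw [inv_mul_le_iff₀ (zero_lt_iff.mpr hpos), mul_one]
    exact hmax k
  obtain ⟨y, hy⟩ := exists_int_of_coeff_mem A _ hmem
  refine ⟨(P.coeff k₀)⁻¹, inv_ne_zero hk₀, y, hy, ?_⟩
  intro h0
  have h1 : y.coeff k₀ = 1 := by
    apply Subtype.ext
    have := congrArg (fun f => HahnSeries.coeff f k₀) hy
    simp only [coeffMap_coeff, HahnSeries.coeff_smul, smul_eq_mul] at this
    rw [inv_mul_cancel₀ hk₀] at this
    exact this
  have h2 := congrArg (fun f => HahnSeries.coeff f k₀) h0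
  simp only [coeffMap_coeff, h1, map_one, HahnSeries.coeff_zero] at h2
  exact one_ne_zero h2

/-- the field of fractions of `PSer L`. -/
def GField (L : Type*) [Field L] : Subfield (LaurentSeries L) :=
  Subfield.closure (Set.range (algebraMap L (LaurentSeries L)) ∪ Set.range (intS L))

theorem exists_hasRed_of_mem_GField (A : ValuationSubring L) {x : LaurentSeries L}
    (hx : x ∈ GField L) (hx0 : x ≠ 0) :
    ∃ c : L, c ≠ 0 ∧ ∃ z : LaurentSeries (IsLocalRing.ResidueField A), z ≠ 0 ∧
      HasRed A (c • x) z := by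
  obtain ⟨P, hP, Q, hQ, rfl⟩ := Subfield.mem_closure_iff.mp hx
  have hP0 : P ≠ 0 := by rintro rfl; simp at hx0
  have hQ0 : Q ≠ 0 := by rintro rfl; simp at hx0
  obtain ⟨c₁, hc₁, y₁, hy₁, hr₁⟩ := exists_normalize A (subring_closure_le_PSer hP) hP0
  obtain ⟨c₂, hc₂, y₂, hy₂, hr₂⟩ := exists_normalize A (subring_closure_le_PSer hQ) hQ0
  refine ⟨c₁ / c₂, div_ne_zero hc₁ hc₂, _, div_ne_zero hr₁ hr₂,
    ?_⟩
  have h := (HasRed.of_int y₁).div (HasRed.of_int y₂) hr₂
  rw [hy₁, hy₂] at h
  convert h using 1
  rw [← HahnSeries.C_mul_eq_smul, ← HahnSeries.C_mul_eq_smul, ← HahnSeries.C_mul_eq_smul, map_div₀]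
  have : (HahnSeries.C c₂ : LaurentSeries L) ≠ 0 := by
    rw [Ne, map_eq_zero]; exact hc₂
  field_simp

section Modular

variable [Algebra ℚ L]

theorem coeffEmb_qExpand_jq (d : ℕ) [NeZero d] :
    coeffEmb L (qExpand ℚ d jq) = intS L (qExpand ℤ d (jqModC ℤ)) := by
  have h1 : coeffEmb L jq = jqModC L := map_jqModC (algebraMap ℚ L)
  have h2 : intS L (jqModC ℤ) = jqModC L := map_jqModC (Int.castRingHom L)
  rw [coeffEmb, coeffMap_qExpand, coeffMap_qExpand, h2, ← h1, coeffEmb]

theorem coeffEmb_mem_GField (M : ℕ) {y : LaurentSeries ℚ} (hy : y ∈ modularFunctionFieldFull M) :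
    coeffEmb L y ∈ GField L := by
  have hy' : y ∈ Subfield.closure
      (Set.range (algebraMap ℚ (LaurentSeries ℚ)) ∪ divisorExpansions M) := hy
  have hle : Subfield.closure
      (Set.range (algebraMap ℚ (LaurentSeries ℚ)) ∪ divisorExpansions M) ≤
        (GField L).comap (coeffEmb L) := by
    rw [Subfield.closure_le]
    rintro _ (⟨r, rfl⟩ | ⟨d, hd, _, rfl⟩)
    · show coeffEmb L (algebraMap ℚ (LaurentSeries ℚ) r) ∈ GField L
      apply Subfield.subset_closure
      left
      refine ⟨algebraMap ℚ L r, ?_⟩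
      rw [algebraMap_laurentSeries_eq_single, algebraMap_laurentSeries_eq_single, coeffEmb,
        coeffMap_single]
    · show coeffEmb L (qExpand ℚ d jq) ∈ GField L
      apply Subfield.subset_closure
      right
      exact ⟨_, (coeffEmb_qExpand_jq d).symm⟩
  exact hle hy'

theorem laurentBaseChange_le_GField (M : ℕ) {x : LaurentSeries L}
    (hx : x ∈ laurentBaseChange L (modularFunctionFieldFull M)) : x ∈ GField L := by
  rw [mem_laurentBaseChange_iff] at hx
  have hle : Subfield.closure (Set.range (algebraMap L (LaurentSeries L)) ∪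
      (⇑(coeffEmb L) '' (modularFunctionFieldFull M : Set (LaurentSeries ℚ)))) ≤ GField L := by
    rw [Subfield.closure_le]
    rintro _ (⟨c, rfl⟩ | ⟨y, hy, rfl⟩)
    · exact Subfield.subset_closure (Or.inl ⟨c, rfl⟩)
    · exact coeffEmb_mem_GField M hy
  exact hle hx

/-- **(B')** every nonzero modular function has, up to a constant, a nonzero reduction. -/
theorem exists_hasRed_of_mem_FL (A : ValuationSubring L) (M : ℕ) {x : LaurentSeries L}
    (hx : x ∈ laurentBaseChange L (modularFunctionFieldFull M)) (hx0 : x ≠ 0) :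
    ∃ c : L, c ≠ 0 ∧ ∃ z : LaurentSeries (IsLocalRing.ResidueField A), z ≠ 0 ∧
      HasRed A (c • x) z :=
  exists_hasRed_of_mem_GField A (laurentBaseChange_le_GField M hx) hx0

/-- version of (B') with multiplication by the constant series `C c`. -/
theorem exists_hasRed_C_mul_of_mem_FL (A : ValuationSubring L) (M : ℕ) {x : LaurentSeries L}
    (hx : x ∈ laurentBaseChange L (modularFunctionFieldFull M)) (hx0 : x ≠ 0) :
    ∃ c : L, c ≠ 0 ∧ ∃ z : LaurentSeries (IsLocalRing.ResidueField A), z ≠ 0 ∧
      HasRed A (HahnSeries.C c * x) z := by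
  obtain ⟨c, hc, z, hz, h⟩ := exists_hasRed_of_mem_FL A M hx hx0
  exact ⟨c, hc, z, hz, by rwa [HahnSeries.C_mul_eq_smul]⟩

end Modular

end Fermat.Agent.GR
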