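import Mathlib

/-!
# Block (F) of the Galois representation project: representations in which every group element
satisfies a quadratic relation `g² - a(g) g + χ(g) = 0`

* `finrank_le_two_of_subalgebra`, `finrank_le_two_of_quadratic` : an irreducible such
  representation over an algebraically closed field has dimension `≤ 2`;
* `charpoly_eq_of_quadratic` : in dimension `2` the relation is the characteristic polynomial;
* `exists_two_dim` : from any nonzero such representation one gets a two dimensional one with the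
  prescribed characteristic polynomials;
* `exists_pow_rel` : the relation passes to powers.
-/

set_option autoImplicit false

namespace Fermat.Agent.GR

open Module Polynomial

/-! ## Scalars -/

section Scal

variable {κ W : Type*} [Field κ] [AddCommGroup W] [Module κ W]

/-- `x` is a scalar endomorphism. -/
def IsScal (x : Module.End κ W) : Prop := ∃ c : κ, x = c • (1 : Module.End κ W)

theorem IsScal.add {x y : Module.End κ W} (hx : IsScal x) (hy : IsScal y) : IsScal (x + y) := by
  obtain ⟨c, rfl⟩ := hx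
  obtain ⟨d, rfl⟩ := hy
  exact ⟨c + d, by rw [add_smul]⟩

theorem IsScal.smul {x : Module.End κ W} (hx : IsScal x) (c : κ) : IsScal (c • x) := by
  obtain ⟨d, rfl⟩ := hx
  exact ⟨c * d, by rw [smul_smul]⟩

theorem isScal_zero : IsScal (0 : Module.End κ W) := ⟨0, by rw [zero_smul]⟩

theorem isScal_smul_one (c : κ) : IsScal (c • (1 : Module.End κ W)) := ⟨c, rfl⟩

end Scal

/-! ## The pairs `(x, x*)` -/

section Pairs

variable {κ G W : Type*} [Field κ] [Group G] [AddCommGroup W] [Module κ W]
  (ρ : G →* Module.End κ W) (χ : G →* κˣ)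

/-- the span of the pairs `(ρ g, χ(g) ρ(g⁻¹))`. -/
def starPairs : Submodule κ (Module.End κ W × Module.End κ W) :=
  Submodule.span κ (Set.range fun g : G => (ρ g, ((χ g : κˣ) : κ) • ρ g⁻¹))

variable {ρ χ}

theorem rho_mul_inv (g : G) : ρ g * ρ g⁻¹ = 1 := by rw [← map_mul, mul_inv_cancel, map_one]

theorem rho_add_star (hrel : ∀ g, ∃ a : κ, ρ g * ρ g - a • ρ g + ((χ g : κˣ) : κ) • 1 = 0) (g : G) :
    IsScal (ρ g + ((χ g : κˣ) : κ) • ρ g⁻¹) := by
  obtain ⟨a, ha⟩ := hrel g
  refine ⟨a, ?_⟩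
  have h1 := congrArg (fun z => z * ρ g⁻¹) ha
  simp only [add_mul, sub_mul, zero_mul, mul_assoc, rho_mul_inv, mul_one, smul_mul_assoc,
    one_mul] at h1
  rw [← sub_eq_zero]
  rw [← h1]
  abel

theorem starPairs_add (hrel : ∀ g, ∃ a : κ, ρ g * ρ g - a • ρ g + ((χ g : κˣ) : κ) • 1 = 0)
    {u : Module.End κ W × Module.End κ W} (hu : u ∈ starPairs ρ χ) : IsScal (u.1 + u.2) := by
  induction hu using Submodule.span_induction with
  | mem x hx =>
    obtain ⟨g, rfl⟩ := hx
    exact rho_add_star hrel g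
  | zero => simpa using isScal_zero
  | add x y _ _ hx hy =>
    have : (x + y).1 + (x + y).2 = (x.1 + x.2) + (y.1 + y.2) := by
      simp only [Prod.fst_add, Prod.snd_add]; abel
    rw [this]
    exact hx.add hy
  | smul c x _ hx =>
    have : (c • x).1 + (c • x).2 = c • (x.1 + x.2) := by
      simp only [Prod.smul_fst, Prod.smul_snd, smul_add]
    rw [this]
    exact hx.smul c

theorem starPairs_cross_gen
    (hrel : ∀ g, ∃ a : κ, ρ g * ρ g - a • ρ g + ((χ g : κˣ) : κ) • 1 = 0) (g h : G) :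
    IsScal (ρ g * (((χ h : κˣ) : κ) • ρ h⁻¹) + ρ h * (((χ g : κˣ) : κ) • ρ g⁻¹)) := by
  have h1 := (rho_add_star hrel (g * h⁻¹)).smul ((χ h : κˣ) : κ)
  have h2 : ρ g * (((χ h : κˣ) : κ) • ρ h⁻¹) + ρ h * (((χ g : κˣ) : κ) • ρ g⁻¹) =
      ((χ h : κˣ) : κ) • (ρ (g * h⁻¹) + ((χ (g * h⁻¹) : κˣ) : κ) • ρ (g * h⁻¹)⁻¹) := by
    have e1 : (g * h⁻¹)⁻¹ = h * g⁻¹ := by group
    have e2 : ((χ h : κˣ) : κ) * ((χ (g * h⁻¹) : κˣ) : κ) = ((χ g : κˣ) : κ) := by
      rw [← Units.val_mul, map_mul, map_inv, mul_comm (χ g), mul_inv_cancel_left]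
    rw [e1, smul_add, smul_smul, e2, map_mul, map_mul, mul_smul_comm, mul_smul_comm]
  rw [h2]
  exact h1

theorem starPairs_cross (hrel : ∀ g, ∃ a : κ, ρ g * ρ g - a • ρ g + ((χ g : κˣ) : κ) • 1 = 0)
    {u v : Module.End κ W × Module.End κ W} (hu : u ∈ starPairs ρ χ) (hv : v ∈ starPairs ρ χ) :
    IsScal (u.1 * v.2 + v.1 * u.2) := by
  induction hu using Submodule.span_induction with
  | mem x hx =>
    obtain ⟨g, rfl⟩ := hx
    induction hv using Submodule.span_induction with
    | mem y hy =>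
      obtain ⟨h, rfl⟩ := hy
      exact starPairs_cross_gen hrel g h
    | zero => simpa using isScal_zero
    | add y z _ _ hy hz =>
      have : ∀ p q : Module.End κ W, p * (y + z).2 + (y + z).1 * q =
          (p * y.2 + y.1 * q) + (p * z.2 + z.1 * q) := by
        intro p q
        simp only [Prod.fst_add, Prod.snd_add, mul_add, add_mul]; abel
      rw [this]
      exact hy.add hz
    | smul c y _ hy =>
      have : ∀ p q : Module.End κ W, p * (c • y).2 + (c • y).1 * q = c • (p * y.2 + y.1 * q) := by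
        intro p q
        simp only [Prod.smul_fst, Prod.smul_snd, smul_add, mul_smul_comm, smul_mul_assoc]
      rw [this]
      exact hy.smul c
  | zero => simpa using isScal_zero
  | add x y _ _ hx hy =>
    have : (x + y).1 * v.2 + v.1 * (x + y).2 = (x.1 * v.2 + v.1 * x.2) + (y.1 * v.2 + v.1 * y.2) := by
      simp only [Prod.fst_add, Prod.snd_add, mul_add, add_mul]; abel
    rw [this]
    exact hx.add hy
  | smul c x _ hx =>
    have : (c • x).1 * v.2 + v.1 * (c • x).2 = c • (x.1 * v.2 + v.1 * x.2) := by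
      simp only [Prod.smul_fst, Prod.smul_snd, smul_add, mul_smul_comm, smul_mul_assoc]
    rw [this]
    exact hx.smul c

theorem starPairs_mul (hrel : ∀ g, ∃ a : κ, ρ g * ρ g - a • ρ g + ((χ g : κˣ) : κ) • 1 = 0)
    {u : Module.End κ W × Module.End κ W} (hu : u ∈ starPairs ρ χ) : IsScal (u.1 * u.2) := by
  induction hu using Submodule.span_induction with
  | mem x hx =>
    obtain ⟨g, rfl⟩ := hx
    refine ⟨((χ g : κˣ) : κ), ?_⟩
    show ρ g * (((χ g : κˣ) : κ) • ρ g⁻¹) = _
    rw [mul_smul_comm, rho_mul_inv]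
  | zero => simpa using isScal_zero
  | add x y hx' hy' hx hy =>
    have : (x + y).1 * (x + y).2 = x.1 * x.2 + y.1 * y.2 + (x.1 * y.2 + y.1 * x.2) := by
      simp only [Prod.fst_add, Prod.snd_add, mul_add, add_mul]; abel
    rw [this]
    exact (hx.add hy).add (starPairs_cross hrel hx' hy')
  | smul c x _ hx =>
    have : (c • x).1 * (c • x).2 = c • c • (x.1 * x.2) := by
      simp only [Prod.smul_fst, Prod.smul_snd, mul_smul_comm, smul_mul_assoc]
    rw [this]
    exact (hx.smul c).smul c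

theorem starPairs_quad (hrel : ∀ g, ∃ a : κ, ρ g * ρ g - a • ρ g + ((χ g : κˣ) : κ) • 1 = 0)
    {u : Module.End κ W × Module.End κ W} (hu : u ∈ starPairs ρ χ) :
    ∃ t n : κ, u.1 * u.1 = t • u.1 - n • 1 := by
  obtain ⟨t, ht⟩ := starPairs_add hrel hu
  obtain ⟨n, hn⟩ := starPairs_mul hrel hu
  refine ⟨t, n, ?_⟩
  have h2 : u.2 = t • 1 - u.1 := by rw [← ht]; abel
  rw [h2, mul_sub, mul_smul_comm, mul_one] at hn
  rw [← hn]
  abel

theorem exists_starPairs_of_mem_span {x : Module.End κ W}
    (hx : x ∈ Submodule.span κ (Set.range ρ)) : ∃ u ∈ starPairs ρ χ, u.1 = x := by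
  have h : Submodule.span κ (Set.range ρ) =
      (starPairs ρ χ).map (LinearMap.fst κ (Module.End κ W) (Module.End κ W)) := by
    rw [starPairs, Submodule.map_span, ← Set.range_comp]
    rfl
  rw [h] at hx
  obtain ⟨u, hu, rfl⟩ := hx
  exact ⟨u, hu, rfl⟩

end Pairs

/-! ## Irreducible subalgebras all of whose elements satisfy a quadratic equation -/

section Subalg

variable {κ W : Type*} [Field κ] [AddCommGroup W] [Module κ W]

/-- transitivity of an irreducible subalgebra. -/
theorem exists_apply_eq (A : Subalgebra κ (Module.End κ W))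
    (hirr : ∀ U : Submodule κ W, (∀ x ∈ A, ∀ w ∈ U, x w ∈ U) → U = ⊥ ∨ U = ⊤)
    {w : W} (hw : w ≠ 0) (v : W) : ∃ x ∈ A, x w = v := by
  let U : Submodule κ W := (Subalgebra.toSubmodule A).map (LinearMap.applyₗ w)
  have hU : U = ⊥ ∨ U = ⊤ := hirr U (by
    rintro x hx _ ⟨y, hy, rfl⟩
    exact ⟨x * y, A.mul_mem hx hy, rfl⟩)
  have hwU : w ∈ U := ⟨1, A.one_mem, rfl⟩
  rcases hU with h | h
  · rw [h] at hwU
    exact absurd ((Submodule.mem_bot κ).1 hwU) hw
  · have hv : v ∈ U := by rw [h]; trivial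
    obtain ⟨x, hx, rfl⟩ := hv
    exact ⟨x, hx, rfl⟩

/-- a singular element satisfying a quadratic equation satisfies `z² = t z`. -/
theorem exists_sq_eq_smul {z : Module.End κ W} (hz : ∃ t n : κ, z * z = t • z - n • 1)
    {v₀ : W} (hv₀ : v₀ ≠ 0) (hzv : z v₀ = 0) : ∃ t : κ, z * z = t • z := by
  obtain ⟨t, n, h⟩ := hz
  have h1 := congrArg (fun f : Module.End κ W => f v₀) h
  simp only [Module.End.mul_apply, hzv, map_zero, LinearMap.sub_apply, LinearMap.smul_apply,
    smul_zero, Module.End.one_apply, zero_sub] at h1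
  have hn : n = 0 := by
    have h2 : n • v₀ = 0 := by rw [← neg_eq_zero]; exact h1.symm
    exact (smul_eq_zero.1 h2).resolve_right hv₀
  exact ⟨t, by rw [h, hn, zero_smul, sub_zero]⟩

variable [IsAlgClosed κ]

theorem eq_smul_of_idempotent (A : Subalgebra κ (Module.End κ W))
    (hquad : ∀ x ∈ A, ∃ t n : κ, x * x = t • x - n • 1)
    (hirr : ∀ U : Submodule κ W, (∀ x ∈ A, ∀ w ∈ U, x w ∈ U) → U = ⊥ ∨ U = ⊤)
    {e : Module.End κ W} (he : e ∈ A) {v₀ w₁ : W} (hv₀ : v₀ ≠ 0) (hev : e v₀ = 0)
    (hw₁ : w₁ ≠ 0) (hew : e w₁ = w₁) (u : W) (heu : e u = u) : ∃ c : κ, u = c • w₁ := by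
  by_contra hcon
  obtain ⟨b, hb, hbw⟩ := exists_apply_eq A hirr hw₁ u
  set y : Module.End κ W := e * b * e with hy
  have hyA : y ∈ A := A.mul_mem (A.mul_mem he hb) he
  have hyw : y w₁ = u := by simp [hy, hew, hbw, heu]
  have hyv : y v₀ = 0 := by simp [hy, hev]
  obtain ⟨t, ht⟩ := exists_sq_eq_smul (hquad y hyA) hv₀ hyv
  have hyu : y u = t • u := by
    have := congrArg (fun f : Module.End κ W => f w₁) ht
    simpa [hyw] using this
  classical
  obtain ⟨s, hs⟩ := Infinite.exists_notMem_finset ({0, -t} : Finset κ)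
  have hs0 : s ≠ 0 := fun h => hs (by simp [h])
  have hst : s ≠ -t := fun h => hs (by simp [h])
  set z : Module.End κ W := y + s • e with hz
  have hzA : z ∈ A := A.add_mem hyA (A.smul_mem he s)
  have hzv : z v₀ = 0 := by simp [hz, hyv, hev]
  obtain ⟨tz, htz⟩ := exists_sq_eq_smul (hquad z hzA) hv₀ hzv
  have h1 : z w₁ = u + s • w₁ := by simp [hz, hyw, hew]
  have h2 : z u = (t + s) • u := by simp [hz, hyu, heu, add_smul]
  have h3 := congrArg (fun f : Module.End κ W => f w₁) htz
  simp only [Module.End.mul_apply, LinearMap.smul_apply, h1, map_add, map_smul, h2] at h3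
  -- `(t + 2 s - tz) u = (tz s - s²) w₁`
  have h4 : (t + s + s - tz) • u = (tz * s - s * s) • w₁ := by
    have e1 : (t + s + s - tz) • u = ((t + s) • u + s • (u + s • w₁)) - s • s • w₁ - tz • u := by
      simp only [add_smul, sub_smul, smul_add]; abel
    rw [e1, h3]
    simp only [smul_add, sub_smul, mul_smul]; abel
  by_cases h5 : t + s + s - tz = 0
  · rw [h5, zero_smul] at h4
    have h6 : tz * s - s * s = 0 := (smul_eq_zero.1 h4.symm).resolve_right hw₁
    have h7 : (tz - s) * s = 0 := by rw [sub_mul]; exact h6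
    have h8 : tz = s := sub_eq_zero.1 ((mul_eq_zero.1 h7).resolve_right hs0)
    apply hst
    rw [h8] at h5
    linear_combination h5
  · apply hcon
    refine ⟨(t + s + s - tz)⁻¹ * (tz * s - s * s), ?_⟩
    rw [mul_smul, ← h4, smul_smul, inv_mul_cancel₀ h5, one_smul]

/-- **Dimension bound.**  An irreducible algebra of endomorphisms of a finite dimensional vector
space over an algebraically closed field all of whose elements satisfy a quadratic equation acts on
a space of dimension at most two. -/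
theorem finrank_le_two_of_subalgebra [FiniteDimensional κ W] (A : Subalgebra κ (Module.End κ W))
    (hquad : ∀ x ∈ A, ∃ t n : κ, x * x = t • x - n • 1)
    (hirr : ∀ U : Submodule κ W, (∀ x ∈ A, ∀ w ∈ U, x w ∈ U) → U = ⊥ ∨ U = ⊤) :
    Module.finrank κ W ≤ 2 := by
  rcases subsingleton_or_nontrivial W with hW | hW
  · rw [Module.finrank_zero_of_subsingleton]; omega
  by_cases hsc : ∀ x ∈ A, IsScal x
  · obtain ⟨w, hw⟩ := exists_ne (0 : W)
    have h1 : Module.finrank κ W ≤ 1 := by
      apply finrank_le_one w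
      intro v
      obtain ⟨x, hx, rfl⟩ := exists_apply_eq A hirr hw v
      obtain ⟨c, rfl⟩ := hsc x hx
      exact ⟨c, by simp⟩
    omega
  · push Not at hsc
    obtain ⟨x, hx, hxs⟩ := hsc
    obtain ⟨c, hc⟩ := Module.End.exists_eigenvalue x
    obtain ⟨v₀, hv⟩ := hc.exists_hasEigenvector
    have hv₀ : v₀ ≠ 0 := hv.2
    have hxv : x v₀ = c • v₀ := hv.apply_eq_smul
    set x₁ : Module.End κ W := x - c • 1 with hx₁
    have hx₁A : x₁ ∈ A := A.sub_mem hx (A.smul_mem A.one_mem c)
    have hx₁v : x₁ v₀ = 0 := by simp [hx₁, hxv]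
    have hx₁0 : x₁ ≠ 0 := fun h => hxs ⟨c, sub_eq_zero.1 h⟩
    obtain ⟨t, ht⟩ := exists_sq_eq_smul (hquad x₁ hx₁A) hv₀ hx₁v
    obtain ⟨u₀, hu₀⟩ : ∃ u₀, x₁ u₀ ≠ 0 := by
      by_contra hcon
      push Not at hcon
      exact hx₁0 (LinearMap.ext hcon)
    -- an idempotent
    obtain ⟨e, he, w₁, hw₁, hew, hev⟩ : ∃ e ∈ A, ∃ w₁ : W, w₁ ≠ 0 ∧ e w₁ = w₁ ∧ e v₀ = 0 := by
      by_cases ht0 : t = 0
      · obtain ⟨b, hb, hbw⟩ := exists_apply_eq A hirr hu₀ u₀
        have hu₀0 : u₀ ≠ 0 := by
          rintro rfl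
          exact hu₀ (map_zero _)
        exact ⟨b * x₁, A.mul_mem hb hx₁A, u₀, hu₀0, by simp [hbw], by simp [hx₁v]⟩
      · refine ⟨t⁻¹ • x₁, A.smul_mem hx₁A _, x₁ u₀, hu₀, ?_, by simp [hx₁v]⟩
        have h1 := congrArg (fun f : Module.End κ W => f u₀) ht
        simp only [Module.End.mul_apply, LinearMap.smul_apply] at h1
        rw [LinearMap.smul_apply, h1, smul_smul, inv_mul_cancel₀ ht0, one_smul]
    have h1 := eq_smul_of_idempotent A hquad hirr he hv₀ hev hw₁ hew
    have h2 := eq_smul_of_idempotent A hquad hirr (e := 1 - e) (A.sub_mem A.one_mem he) hw₁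
      (by simp [hew]) hv₀ (by simp [hev])
    -- here we need `e (e u) = e u`
    obtain ⟨te, hte⟩ := exists_sq_eq_smul (hquad e he) hv₀ hev
    have hte1 : te = 1 := by
      have h3 := congrArg (fun f : Module.End κ W => f w₁) hte
      simp only [Module.End.mul_apply, LinearMap.smul_apply, hew] at h3
      have h4 : (1 - te) • w₁ = 0 := by rw [sub_smul, one_smul, ← h3, sub_self]
      have h5 := (smul_eq_zero.1 h4).resolve_right hw₁
      exact (sub_eq_zero.1 h5).symm
    have hee : ∀ u, e (e u) = e u := by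
      intro u
      have h3 := congrArg (fun f : Module.End κ W => f u) hte
      simpa [hte1] using h3
    have hspan : Submodule.span κ (Set.range ![w₁, v₀]) = ⊤ := by
      rw [eq_top_iff]
      intro u _
      obtain ⟨c₁, hc₁⟩ := h1 (e u) (hee u)
      obtain ⟨c₂, hc₂⟩ := h2 (u - e u) (by simp [hee])
      have hu : u = c₁ • w₁ + c₂ • v₀ := by rw [← hc₁, ← hc₂]; abel
      rw [hu]
      refine Submodule.add_mem _ (Submodule.smul_mem _ _ (Submodule.subset_span ⟨0, rfl⟩))
        (Submodule.smul_mem _ _ (Submodule.subset_span ⟨1, rfl⟩))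
    calc Module.finrank κ W = Module.finrank κ (⊤ : Submodule κ W) := (finrank_top κ W).symm
      _ = Module.finrank κ (Submodule.span κ (Set.range ![w₁, v₀])) := by rw [hspan]
      _ ≤ Fintype.card (Fin 2) := finrank_range_le_card _
      _ = 2 := by simp

end Subalg

/-! ## Group representations -/

section Group

variable {κ G W : Type*} [Field κ] [Group G] [AddCommGroup W] [Module κ W]

/-- **(F1)** An irreducible representation over an algebraically closed field in which every group
element satisfies `g² - a(g) g + χ(g) = 0` (`χ` a character) has dimension at most two. -/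
theorem finrank_le_two_of_quadratic [IsAlgClosed κ] [FiniteDimensional κ W]
    (ρ : G →* Module.End κ W) (χ : G →* κˣ)
    (hrel : ∀ g, ∃ a : κ, ρ g * ρ g - a • ρ g + ((χ g : κˣ) : κ) • 1 = 0)
    (hirr : ∀ U : Submodule κ W, (∀ g, ∀ x ∈ U, ρ g x ∈ U) → U = ⊥ ∨ U = ⊤) :
    Module.finrank κ W ≤ 2 := by
  set A : Subalgebra κ (Module.End κ W) := Algebra.adjoin κ (Set.range ρ) with hAdef
  have hA : ∀ x ∈ A, x ∈ Submodule.span κ (Set.range ρ) := by
    intro x hx
    have h1 : Subalgebra.toSubmodule A =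
        Submodule.span κ (Submonoid.closure (Set.range ρ) : Set (Module.End κ W)) :=
      Algebra.adjoin_eq_span κ _
    have h2 : (Submonoid.closure (Set.range ρ) : Set (Module.End κ W)) = Set.range ρ := by
      rw [← MonoidHom.coe_mrange, Submonoid.closure_eq]
    rw [h2] at h1
    rw [← h1]
    exact hx
  apply finrank_le_two_of_subalgebra A
  · intro x hx
    obtain ⟨u, hu, rfl⟩ := exists_starPairs_of_mem_span (χ := χ) (hA x hx)
    exact starPairs_quad hrel hu
  · intro U hU
    exact hirr U fun g x hx => hU (ρ g) (Algebra.subset_adjoin ⟨g, rfl⟩) x hx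

theorem charpoly_eq_of_finrank_two [FiniteDimensional κ W] (h2 : Module.finrank κ W = 2)
    (T : Module.End κ W) :
    T.charpoly = X ^ 2 - C (LinearMap.trace κ W T) * X + C (LinearMap.det T) := by
  let b := Module.finBasisOfFinrankEq κ W h2
  rw [← LinearMap.charpoly_toMatrix T b, Matrix.charpoly_fin_two,
    LinearMap.trace_eq_matrix_trace κ b, ← LinearMap.det_toMatrix b]

theorem cayley_hamilton_two (h2 : Module.finrank κ W = 2) (T : Module.End κ W) :
    T * T - LinearMap.trace κ W T • T + LinearMap.det T • 1 = 0 := by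
  have : FiniteDimensional κ W := Module.finite_of_finrank_eq_succ h2
  have h := LinearMap.aeval_self_charpoly T
  rw [charpoly_eq_of_finrank_two h2 T] at h
  simpa [pow_two, Algebra.smul_def] using h

/-- a non scalar endomorphism of a plane killed by `X² - a X + c` has trace `a`, determinant `c`. -/
theorem trace_det_of_not_isScal (h2 : Module.finrank κ W = 2) {T : Module.End κ W}
    (hT : ¬ IsScal T) {a c : κ} (h : T * T - a • T + c • 1 = 0) :
    LinearMap.trace κ W T = a ∧ LinearMap.det T = c := by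
  have : Nontrivial W := Module.nontrivial_of_finrank_pos (R := κ) (by omega)
  have hch := cayley_hamilton_two h2 T
  have h1 : (LinearMap.trace κ W T - a) • T = (LinearMap.det T - c) • (1 : Module.End κ W) := by
    have e : (LinearMap.trace κ W T - a) • T - (LinearMap.det T - c) • (1 : Module.End κ W) =
        (T * T - a • T + c • 1) - (T * T - LinearMap.trace κ W T • T + LinearMap.det T • 1) := by
      simp only [sub_smul]; abel
    rw [← sub_eq_zero, e, h, hch, sub_zero]
  have h3 : LinearMap.trace κ W T = a := by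
    by_contra hne
    have hne' : LinearMap.trace κ W T - a ≠ 0 := sub_ne_zero.2 hne
    apply hT
    refine ⟨(LinearMap.trace κ W T - a)⁻¹ * (LinearMap.det T - c), ?_⟩
    rw [mul_smul, ← h1, smul_smul, inv_mul_cancel₀ hne', one_smul]
  refine ⟨h3, ?_⟩
  rw [h3, sub_self, zero_smul] at h1
  have h4 : LinearMap.det T - c = 0 := by
    by_contra hne
    have : (1 : Module.End κ W) = 0 := by
      have := congrArg (fun z => (LinearMap.det T - c)⁻¹ • z) h1
      simpa [smul_smul, inv_mul_cancel₀ hne] using this.symm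
    exact one_ne_zero this
  exact sub_eq_zero.1 h4

/-- **(F2)** In dimension two the quadratic relation is the characteristic polynomial. -/
theorem charpoly_eq_of_quadratic [FiniteDimensional κ W] (ρ : G →* Module.End κ W) (χ : G →* κˣ)
    (h2 : Module.finrank κ W = 2)
    (hrel : ∀ g, ∃ a : κ, ρ g * ρ g - a • ρ g + ((χ g : κˣ) : κ) • 1 = 0)
    (hirr : ∀ U : Submodule κ W, (∀ g, ∀ x ∈ U, ρ g x ∈ U) → U = ⊥ ∨ U = ⊤)
    (g : G) (a : κ) (ha : ρ g * ρ g - a • ρ g + ((χ g : κˣ) : κ) • 1 = 0) :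
    (ρ g).charpoly = X ^ 2 - C a * X + C ((χ g : κˣ) : κ) := by
  have hnt : Nontrivial W := Module.nontrivial_of_finrank_pos (R := κ) (by omega)
  rw [charpoly_eq_of_finrank_two h2]
  by_cases hs : IsScal (ρ g)
  · -- a non scalar element
    obtain ⟨h, hh⟩ : ∃ h, ¬ IsScal (ρ h) := by
      by_contra hcon
      push Not at hcon
      obtain ⟨w, hw⟩ := exists_ne (0 : W)
      rcases hirr (Submodule.span κ {w}) (by
        intro k x hx
        obtain ⟨c, hc⟩ := hcon k
        rw [hc]
        simpa using Submodule.smul_mem _ c hx) with h | h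
      · exact hw ((Submodule.span_singleton_eq_bot).1 h)
      · have h3 := finrank_span_singleton (K := κ) hw
        rw [h, finrank_top, h2] at h3
        omega
    obtain ⟨c, hc⟩ := hs
    have hc0 : c ≠ 0 := by
      rintro rfl
      have h3 := rho_mul_inv (ρ := ρ) g
      rw [hc, zero_smul, zero_mul] at h3
      exact one_ne_zero h3.symm
    have hgh : ρ (g * h) = c • ρ h := by rw [map_mul, hc, smul_mul_assoc, one_mul]
    have hghs : ¬ IsScal (ρ (g * h)) := by
      rintro ⟨d, hd⟩
      apply hh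
      refine ⟨c⁻¹ * d, ?_⟩
      rw [mul_smul, ← hd, hgh, smul_smul, inv_mul_cancel₀ hc0, one_smul]
    obtain ⟨a₁, ha₁⟩ := hrel h
    obtain ⟨a₂, ha₂⟩ := hrel (g * h)
    have d1 := (trace_det_of_not_isScal h2 hh ha₁).2
    have d2 := (trace_det_of_not_isScal h2 hghs ha₂).2
    rw [hgh, LinearMap.det_smul, h2, d1, map_mul, Units.val_mul] at d2
    have hχ : ((χ g : κˣ) : κ) = c ^ 2 :=
      (mul_right_cancel₀ (Units.ne_zero (χ h)) d2).symm
    have hac : a = 2 * c := by
      rw [hc, hχ] at ha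
      have h3 : (c * c - a * c + c ^ 2) • (1 : Module.End κ W) = 0 := by
        rw [← ha]
        simp only [add_smul, sub_smul, smul_mul_assoc, mul_smul_comm, one_mul, smul_smul]
      have h4 : c * c - a * c + c ^ 2 = 0 := by
        by_contra hne
        have : (1 : Module.End κ W) = 0 := by
          have := congrArg (fun z => (c * c - a * c + c ^ 2)⁻¹ • z) h3
          simp [smul_smul, inv_mul_cancel₀ hne] at this
        exact one_ne_zero this
      have h5 : c * (2 * c - a) = 0 := by linear_combination h4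
      have h6 := (mul_eq_zero.1 h5).resolve_left hc0
      exact (sub_eq_zero.1 h6).symm
    rw [hc, map_smul, LinearMap.det_smul, h2, hχ, hac]
    have ht : LinearMap.trace κ W (1 : Module.End κ W) = 2 := by
      rw [LinearMap.trace_one, h2]; norm_num
    rw [ht, map_one, mul_one, smul_eq_mul, mul_comm c 2]
  · obtain ⟨h3, h4⟩ := trace_det_of_not_isScal h2 hs ha
    rw [h3, h4]

end Group

/-! ## Powers -/

section Powers

variable {κ B : Type*} [Field κ] [Ring B] [Algebra κ B]

/-- **(F4)** the quadratic relation passes to powers. -/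
theorem exists_pow_rel {F : B} {a c : κ} (h : F * F - a • F + c • 1 = 0) (j : ℕ) :
    ∃ aj : κ, F ^ j * F ^ j - aj • F ^ j + c ^ j • 1 = 0 := by
  set F' : B := a • 1 - F with hF'
  have hcomm : Commute F F' := by
    rw [hF']
    exact ((Commute.one_right F).smul_right a).sub_right (Commute.refl F)
  have hFF' : F * F' = c • 1 := by
    rw [hF', mul_sub, mul_smul_comm, mul_one]
    rw [← sub_eq_zero, ← neg_eq_zero, ← h]
    abel
  have hF2 : F * F = a • F - c • 1 := by
    rw [← sub_eq_zero, ← h]; abel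
  have hF'2 : F' * F' = a • F' - c • 1 := by
    have : F' * F' = a • F' - F * F' := by
      conv_lhs => rw [hF', sub_mul, smul_mul_assoc, one_mul]
    rw [this, hFF']
  -- `F^j + F'^j` is a scalar
  have hs : ∀ j : ℕ, (∃ s : κ, F ^ j + F' ^ j = s • 1) ∧ (∃ s : κ, F ^ (j + 1) + F' ^ (j + 1) = s • 1) := by
    intro j
    induction j with
    | zero =>
      refine ⟨⟨2, by rw [pow_zero, pow_zero, two_smul]⟩, ⟨a, ?_⟩⟩
      rw [zero_add, pow_one, pow_one, hF']; abel
    | succ j ih =>
      obtain ⟨⟨s₀, hs₀⟩, ⟨s₁, hs₁⟩⟩ := ih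
      refine ⟨⟨s₁, hs₁⟩, ⟨a * s₁ - c * s₀, ?_⟩⟩
      have e1 : F ^ (j + 1 + 1) = a • F ^ (j + 1) - c • F ^ j := by
        rw [pow_succ, pow_succ, mul_assoc, hF2, mul_sub, mul_smul_comm, mul_smul_comm, mul_one,
          ← pow_succ]
      have e2 : F' ^ (j + 1 + 1) = a • F' ^ (j + 1) - c • F' ^ j := by
        rw [pow_succ, pow_succ, mul_assoc, hF'2, mul_sub, mul_smul_comm, mul_smul_comm, mul_one,
          ← pow_succ]
      rw [e1, e2]
      have e3 : a • F ^ (j + 1) - c • F ^ j + (a • F' ^ (j + 1) - c • F' ^ j) =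
          a • (F ^ (j + 1) + F' ^ (j + 1)) - c • (F ^ j + F' ^ j) := by
        simp only [smul_add]; abel
      rw [e3, hs₀, hs₁, smul_smul, smul_smul, sub_smul]
  obtain ⟨s, hs⟩ := (hs j).1
  refine ⟨s, ?_⟩
  have h1 : F ^ j * F' ^ j = c ^ j • 1 := by
    rw [← hcomm.mul_pow, hFF', _root_.smul_pow, one_pow]
  have h2 : F' ^ j = s • 1 - F ^ j := by rw [← hs]; abel
  rw [h2, mul_sub, mul_smul_comm, mul_one] at h1
  rw [← h1]
  abel

end Powers

/-! ## Extraction of a two dimensional representation -/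

section Extract

universe u

variable {G : Type*} {κ V : Type u} [Field κ] [Group G] [AddCommGroup V] [Module κ V]

/-- restriction of a representation to an invariant subspace. -/
def restrictRep (ρ : G →* Module.End κ V) (U : Submodule κ V)
    (hU : ∀ g, ∀ x ∈ U, ρ g x ∈ U) : G →* Module.End κ U where
  toFun g := (ρ g).restrict (hU g)
  map_one' := by ext x; simp
  map_mul' g h := by ext x; simp

@[simp] theorem restrictRep_apply (ρ : G →* Module.End κ V) (U : Submodule κ V)
    (hU : ∀ g, ∀ x ∈ U, ρ g x ∈ U) (g : G) (x : U) :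
    ((restrictRep ρ U hU g x : U) : V) = ρ g (x : V) := rfl

theorem exists_minimal_invariant [FiniteDimensional κ V] [Nontrivial V]
    (ρ : G →* Module.End κ V) :
    ∃ U : Submodule κ V, U ≠ ⊥ ∧ (∀ g, ∀ x ∈ U, ρ g x ∈ U) ∧
      ∀ U' : Submodule κ V, U' ≤ U → (∀ g, ∀ x ∈ U', ρ g x ∈ U') → U' = ⊥ ∨ U' = U := by
  let S : Set (Submodule κ V) := {U | U ≠ ⊥ ∧ ∀ g, ∀ x ∈ U, ρ g x ∈ U}
  have hS : S.Nonempty := ⟨⊤, top_ne_bot, fun _ _ _ => trivial⟩
  obtain ⟨U, hU, hmin⟩ := (wellFounded_lt (α := Submodule κ V)).has_min S hS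
  refine ⟨U, hU.1, hU.2, fun U' hle hinv => ?_⟩
  by_cases h0 : U' = ⊥
  · exact Or.inl h0
  · exact Or.inr (eq_of_le_of_not_lt hle (hmin U' ⟨h0, hinv⟩))

/-- the diagonal representation `ψ ⊕ ψ'`. -/
def diagRep (ψ ψ' : G →* κ) : G →* Module.End κ (κ × κ) where
  toFun g := LinearMap.prodMap (ψ g • LinearMap.id) (ψ' g • LinearMap.id)
  map_one' := by
    ext <;> simp
  map_mul' g h := by
    ext <;> simp [mul_comm]

theorem charpoly_diagRep (ψ ψ' : G →* κ) (g : G) :
    (diagRep ψ ψ' g).charpoly = X ^ 2 - C (ψ g + ψ' g) * X + C (ψ g * ψ' g) := by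
  have h2 : Module.finrank κ (κ × κ) = 2 := by
    rw [Module.finrank_prod, Module.finrank_self]
  rw [charpoly_eq_of_finrank_two h2]
  have ht : LinearMap.trace κ (κ × κ) (diagRep ψ ψ' g) = ψ g + ψ' g := by
    show LinearMap.trace κ (κ × κ)
      (LinearMap.prodMap (ψ g • LinearMap.id) (ψ' g • LinearMap.id)) = _
    rw [LinearMap.trace_prodMap']
    simp
  have hd : LinearMap.det (diagRep ψ ψ' g) = ψ g * ψ' g := by
    have e : diagRep ψ ψ' g = LinearMap.prodMap (ψ g • (LinearMap.id : Module.End κ κ))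
        (ψ' g • (LinearMap.id : Module.End κ κ)) := rfl
    rw [e, LinearMap.det_prodMap]
    simp
  rw [ht, hd]

/-- **(F3)** From a nonzero finite dimensional representation over an algebraically closed field in
which every group element satisfies a relation `g² - a g + χ(g) = 0` one gets a two dimensional
representation in which these relations are the characteristic polynomials, and which is trivial on
`ker ρ ∩ ker χ`. -/
theorem exists_two_dim [IsAlgClosed κ] [FiniteDimensional κ V] [Nontrivial V]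
    (ρ : G →* Module.End κ V) (χ : G →* κˣ)
    (hrel : ∀ g, ∃ a : κ, ρ g * ρ g - a • ρ g + ((χ g : κˣ) : κ) • 1 = 0) :
    ∃ (W : Type u) (_ : AddCommGroup W) (_ : Module κ W) (_ : FiniteDimensional κ W)
      (ρ' : G →* Module.End κ W), Module.finrank κ W = 2 ∧
      (∀ (g : G) (a : κ), ρ g * ρ g - a • ρ g + ((χ g : κˣ) : κ) • 1 = 0 →
        (ρ' g).charpoly = X ^ 2 - C a * X + C ((χ g : κˣ) : κ)) ∧
      (∀ g, ρ g = 1 → χ g = 1 → ρ' g = 1) := by
  obtain ⟨U, hU0, hUinv, hUmin⟩ := exists_minimal_invariant ρ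
  set ρU := restrictRep ρ U hUinv with hρU
  have hrelU : ∀ (g : G) (a : κ), ρ g * ρ g - a • ρ g + ((χ g : κˣ) : κ) • 1 = 0 →
      ρU g * ρU g - a • ρU g + ((χ g : κˣ) : κ) • 1 = 0 := by
    intro g a ha
    ext x
    have h1 := congrArg (fun f : Module.End κ V => f (x : V)) ha
    simpa [hρU] using h1
  have hirrU : ∀ U' : Submodule κ U, (∀ g, ∀ x ∈ U', ρU g x ∈ U') → U' = ⊥ ∨ U' = ⊤ := by
    intro U' hU'
    rcases hUmin (U'.map U.subtype) (Submodule.map_subtype_le U U') (by
      rintro g _ ⟨x, hx, rfl⟩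
      exact ⟨ρU g x, hU' g x hx, rfl⟩) with h | h
    · left
      rw [eq_bot_iff]
      intro x hx
      have hx' : (x : V) ∈ U'.map U.subtype := ⟨x, hx, rfl⟩
      rw [h] at hx'
      exact (Submodule.mem_bot κ).2 (Subtype.ext ((Submodule.mem_bot κ).1 hx'))
    · right
      rw [eq_top_iff]
      intro x _
      have hx : (x : V) ∈ U'.map U.subtype := by rw [h]; exact x.2
      obtain ⟨y, hy, hyx⟩ := hx
      have : y = x := Subtype.ext hyx
      rwa [← this]
  have hle : Module.finrank κ U ≤ 2 :=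
    finrank_le_two_of_quadratic ρU χ (fun g => (hrel g).imp fun a ha => hrelU g a ha) hirrU
  have hpos : 0 < Module.finrank κ U := by
    rw [Module.finrank_pos_iff_exists_ne_zero]
    obtain ⟨x, hx, hx0⟩ := Submodule.exists_mem_ne_zero_of_ne_bot hU0
    exact ⟨⟨x, hx⟩, fun h => hx0 (congrArg Subtype.val h)⟩
  rcases (by omega : Module.finrank κ U = 2 ∨ Module.finrank κ U = 1) with h2 | h1
  · refine ⟨U, inferInstance, inferInstance, inferInstance, ρU, h2, ?_, ?_⟩
    · intro g a ha
      exact charpoly_eq_of_quadratic ρU χ h2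
        (fun g => (hrel g).imp fun a ha => hrelU g a ha) hirrU g a (hrelU g a ha)
    · intro g hg _
      ext x
      simp [hρU, hg]
  · -- one dimensional case
    obtain ⟨u₀, hu₀⟩ : ∃ u₀ : U, u₀ ≠ 0 := Module.finrank_pos_iff_exists_ne_zero.1 hpos
    have hspan := (finrank_eq_one_iff_of_nonzero' u₀ hu₀).1 h1
    choose ψ hψ using fun g => hspan (ρU g u₀)
    have hinj : ∀ c d : κ, c • u₀ = d • u₀ → c = d := by
      intro c d h
      have h3 : (c - d) • u₀ = 0 := by rw [sub_smul, h, sub_self]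
      exact sub_eq_zero.1 ((smul_eq_zero.1 h3).resolve_right hu₀)
    have hψ1 : ψ 1 = 1 := by
      apply hinj
      rw [hψ, map_one, one_smul]; rfl
    have hψmul : ∀ g h, ψ (g * h) = ψ g * ψ h := by
      intro g h
      apply hinj
      rw [hψ, map_mul, Module.End.mul_apply, ← hψ h, map_smul, ← hψ g, smul_smul, mul_comm]
    let ψ₁ : G →* κ := { toFun := ψ, map_one' := hψ1, map_mul' := hψmul }
    have hψne : ∀ g, ψ g ≠ 0 := by
      intro g h0
      have h3 := hψmul g g⁻¹
      rw [mul_inv_cancel, hψ1, h0, zero_mul] at h3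
      exact one_ne_zero h3
    let ψ₂ : G →* κ :=
      { toFun := fun g => ((χ g : κˣ) : κ) * (ψ g)⁻¹
        map_one' := by simp [hψ1]
        map_mul' := fun g h => by
          simp only [map_mul, Units.val_mul, hψmul, mul_inv]
          ring }
    refine ⟨κ × κ, inferInstance, inferInstance, inferInstance, diagRep ψ₁ ψ₂, ?_, ?_, ?_⟩
    · rw [Module.finrank_prod, Module.finrank_self]
    · intro g a ha
      rw [charpoly_diagRep]
      have h3 := congrArg (fun f : Module.End κ U => f u₀) (hrelU g a ha)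
      simp only [LinearMap.add_apply, LinearMap.sub_apply, Module.End.mul_apply,
        LinearMap.smul_apply, Module.End.one_apply, LinearMap.zero_apply] at h3
      rw [← hψ g, map_smul, ← hψ g, smul_smul, smul_smul, ← sub_smul, ← add_smul] at h3
      have h4 : ψ g * ψ g - a * ψ g + ((χ g : κˣ) : κ) = 0 :=
        (smul_eq_zero.1 h3).resolve_right hu₀
      have e1 : ψ₁ g + ψ₂ g = a := by
        show ψ g + ((χ g : κˣ) : κ) * (ψ g)⁻¹ = a
        have := hψne g
        field_simp
        linear_combination h4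
      have e2 : ψ₁ g * ψ₂ g = ((χ g : κˣ) : κ) := by
        show ψ g * (((χ g : κˣ) : κ) * (ψ g)⁻¹) = _
        have := hψne g
        field_simp
      rw [e1, e2]
    · intro g hg hχ
      have h3 : ψ g = 1 := by
        apply hinj
        rw [hψ, one_smul]
        ext
        simp [hρU, hg]
      ext <;> simp [diagRep, ψ₁, ψ₂, h3, hχ]

/-- **(F5)** it is enough to know the relation on a set `Φ` of elements (the Frobenius elements)
such that every element acts as a power of an element of `Φ`. -/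
theorem rel_of_generators (ρ : G →* Module.End κ V) (χ : G →* κˣ) (Φ : Set G)
    (hΦ : ∀ g, ∃ f ∈ Φ, ∃ j : ℕ, ρ g = ρ f ^ j ∧ χ g = χ f ^ j)
    (hrelΦ : ∀ f ∈ Φ, ∃ a : κ, ρ f * ρ f - a • ρ f + ((χ f : κˣ) : κ) • 1 = 0) :
    ∀ g, ∃ a : κ, ρ g * ρ g - a • ρ g + ((χ g : κˣ) : κ) • 1 = 0 := by
  intro g
  obtain ⟨f, hf, j, h1, h2⟩ := hΦ g
  obtain ⟨a, ha⟩ := hrelΦ f hf
  obtain ⟨aj, haj⟩ := exists_pow_rel ha j
  refine ⟨aj, ?_⟩
  rw [h1, h2, Units.val_pow_eq_pow_val]
  exact haj

end Extract

end Fermat.Agent.GR
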